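import Fermat.Agent.FlatHopf.Ops

/-!
# Products, Cartier duals, and the converse passage from Hopf algebras to orders

Groups with an order (see `Order`) are closed under products (`HasOrder.prod`) and Cartier duality
(`IsOrder.exists_dualOrder`: the dual order consists of Fourier transforms of the functions pairing
integrally with the order; `HasOrder.of_pairing`).  Conversely the points of a finite flat
cocommutative Hopf algebra carry an order (`hasOrder_of_hasModel`).
-/

set_option autoImplicit false
set_option linter.unusedSectionVars false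

noncomputable section

namespace FLTAgent.FlatHopf

open TensorProduct

variable {R : Type} [CommRing R] [IsDomain R] [IsPrincipalIdealRing R] {K : Type} [Field K]
  [Algebra R K] [FaithfulSMul R K] {Γ : Type} [Group Γ] {φ : Γ →* (K ≃ₐ[R] K)}
  {G G' : Type} [AddCommGroup G] [Finite G] [AddCommGroup G'] [Finite G']
  {act : Γ →* AddMonoid.End G} {act' : Γ →* AddMonoid.End G'}

theorem prodSpan_eq_range {X Y : Type} (H : Submodule R (X → K)) (H' : Submodule R (Y → K)) :
    prodSpan H H' = LinearMap.range (funMul H.subtype H'.subtype) :=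
  SetLike.ext fun f => mem_prodSpan_iff H H' f

theorem one_mem_prodSpan {X Y : Type} (H : Subalgebra R (X → K)) (H' : Subalgebra R (Y → K)) :
    (1 : X × Y → K) ∈ prodSpan (Subalgebra.toSubmodule H) (Subalgebra.toSubmodule H') :=
  Submodule.subset_span ⟨1, one_mem H, 1, one_mem H', funext fun _ => one_mul 1⟩

theorem mul_mem_prodSpan {X Y : Type} (H : Subalgebra R (X → K)) (H' : Subalgebra R (Y → K))
    {f g : X × Y → K} (hf : f ∈ prodSpan (Subalgebra.toSubmodule H) (Subalgebra.toSubmodule H'))
    (hg : g ∈ prodSpan (Subalgebra.toSubmodule H) (Subalgebra.toSubmodule H')) :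
    f * g ∈ prodSpan (Subalgebra.toSubmodule H) (Subalgebra.toSubmodule H') := by
  induction hf using Submodule.span_induction with
  | mem f hf =>
    obtain ⟨a, ha, b, hb, rfl⟩ := hf
    induction hg using Submodule.span_induction with
    | mem g hg =>
      obtain ⟨c, hc, d, hd, rfl⟩ := hg
      exact Submodule.subset_span ⟨a * c, H.mul_mem ha hc, b * d,
        H'.mul_mem hb hd, funext fun z => by
          simp only [Pi.mul_apply]; ring⟩
    | zero => rw [mul_zero]; exact zero_mem _
    | add _ _ _ _ h1 h2 => rw [mul_add]; exact add_mem h1 h2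
    | smul r _ _ h1 => rw [Algebra.mul_smul_comm]; exact Submodule.smul_mem _ r h1
  | zero => rw [zero_mul]; exact zero_mem _
  | add _ _ _ _ h1 h2 => rw [add_mul]; exact add_mem h1 h2
  | smul r _ _ h1 => rw [Algebra.smul_mul_assoc]; exact Submodule.smul_mem _ r h1

/-- The product action. -/
def prodAct (act : Γ →* AddMonoid.End G) (act' : Γ →* AddMonoid.End G') :
    Γ →* AddMonoid.End (G × G') where
  toFun σ := AddMonoidHom.prodMap (act σ) (act' σ)
  map_one' := by
    ext ⟨x, y⟩ : 1
    show (act 1 x, act' 1 y) = (x, y)
    rw [map_one, map_one]; rfl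
  map_mul' σ τ := by
    ext ⟨x, y⟩ : 1
    show (act (σ * τ) x, act' (σ * τ) y) = _
    rw [map_mul, map_mul]; rfl

theorem prodAct_apply (σ : Γ) (x : G) (y : G') :
    prodAct act act' σ (x, y) = (act σ x, act' σ y) := rfl

/-- Finite flat models are closed under products. -/
theorem HasOrder.prod (h : HasOrder φ act) (h' : HasOrder φ act') :
    HasOrder φ (prodAct act act') := by
  obtain ⟨H, hH⟩ := h
  obtain ⟨H', hH'⟩ := h'
  set P := (prodSpan (Subalgebra.toSubmodule H) (Subalgebra.toSubmodule H')).toSubalgebra
    (one_mem_prodSpan H H') (fun f g => mul_mem_prodSpan H H') with hP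
  have hmem : ∀ {a : G → K} {b : G' → K}, a ∈ H → b ∈ H' →
      (fun z : G × G' => a z.1 * b z.2) ∈ P :=
    fun ha hb => Submodule.subset_span ⟨_, ha, _, hb, rfl⟩
  refine ⟨P, ?_, ?_, span_eq_top_of_separates _ fun z z' hzz' => Prod.ext ?_ ?_, ?_⟩
  · have := hH.finite
    have := hH'.finite
    rw [hP, Submodule.toSubalgebra_toSubmodule, prodSpan_eq_range]
    exact Module.Finite.iff_fg.1 inferInstance
  · intro f hf σ z
    change f ∈ prodSpan _ _ at hf
    induction hf using Submodule.span_induction generalizing z with
    | mem f hf =>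
      obtain ⟨a, ha, b, hb, rfl⟩ := hf
      show a (act σ z.1) * b (act' σ z.2) = φ σ (a z.1 * b z.2)
      rw [map_mul, hH.equivariant _ ha, hH'.equivariant _ hb]
    | zero => simp
    | add _ _ _ _ h1 h2 => simp only [Pi.add_apply, h1, h2, map_add]
    | smul r _ _ h1 => simp only [Pi.smul_apply, h1, map_smul]
  · refine hH.separates fun a ha => ?_
    simpa using hzz' _ (hmem ha (one_mem H'))
  · refine hH'.separates fun b hb => ?_
    simpa using hzz' _ (hmem (one_mem H) hb)
  · intro f hf
    change f ∈ prodSpan _ _ at hf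
    induction hf using Submodule.span_induction with
    | zero => exact zero_mem (prodSpan _ _)
    | add f g _ _ h1 h2 => exact add_mem h1 h2
    | smul r f _ h1 => exact Submodule.smul_mem _ r h1
    | mem f hf =>
      obtain ⟨a, ha, b, hb, rfl⟩ := hf
      obtain ⟨s, hs⟩ := (mem_prodSpan_iff _ _ _).1 (hH.comul _ ha)
      obtain ⟨t, ht⟩ := (mem_prodSpan_iff _ _ _).1 (hH'.comul _ hb)
      have e : (fun z : (G × G') × (G × G') => a (z.1 + z.2).1 * b (z.1 + z.2).2) =
          fun z => funMul (Subalgebra.toSubmodule H).subtype (Subalgebra.toSubmodule H).subtype s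
              (z.1.1, z.2.1) *
            funMul (Subalgebra.toSubmodule H').subtype (Subalgebra.toSubmodule H').subtype t
              (z.1.2, z.2.2) := by
        funext z; rw [hs, ht]; rfl
      show (fun z : (G × G') × (G × G') => a (z.1 + z.2).1 * b (z.1 + z.2).2) ∈ _
      rw [e]
      clear e hs ht
      induction s using TensorProduct.induction_on with
      | zero => simp only [map_zero, Pi.zero_apply, zero_mul]; exact zero_mem _
      | add u v hu hv =>
        simp only [map_add, Pi.add_apply, add_mul]
        exact add_mem hu hv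
      | tmul p q =>
        induction t using TensorProduct.induction_on with
        | zero => simp only [map_zero, Pi.zero_apply, mul_zero]; exact zero_mem _
        | add u v hu hv =>
          simp only [map_add, Pi.add_apply, mul_add]
          exact add_mem hu hv
        | tmul p' q' =>
          refine Submodule.subset_span ⟨_, hmem p.2 p'.2, _, hmem q.2 q'.2, funext fun z => ?_⟩
          simp only [funMul_tmul, Submodule.coe_subtype]
          ring

/-- The trivial group has a model. -/
theorem HasOrder.of_subsingleton [Subsingleton G] : HasOrder φ act := by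
  refine ⟨⊥, ?_, ?_, ?_, ?_⟩
  · rw [Algebra.toSubmodule_bot, Submodule.one_eq_span]
    exact Submodule.fg_span_singleton _
  · rintro a ha σ x
    obtain ⟨r, rfl⟩ := Algebra.mem_bot.1 ha
    simp
  · exact span_eq_top_of_separates _ fun x y _ => Subsingleton.elim x y
  · rintro a ha
    obtain ⟨r, rfl⟩ := Algebra.mem_bot.1 ha
    refine Submodule.subset_span ⟨algebraMap R (G → K) r, Subalgebra.algebraMap_mem _ r, 1,
      Subalgebra.one_mem _, funext fun z => by simp⟩

/-- The Cartier dual order: its elements are Fourier transforms of functions pairing integrally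
with `H`, and every character is a combination of elements of `H` with coefficients values of the
dual order. -/
theorem IsOrder.exists_dualOrder (hfix : FixedIsFrac φ) {H : Subalgebra R (G → K)}
    (hH : IsOrder φ act H) [Fintype G] (ev : G' → G → K)
    (hadd : ∀ d x y, ev d (x + y) = ev d x * ev d y) (hzero : ∀ d, ev d 0 = 1)
    (hmul : ∀ d d' x, ev (d + d') x = ev d x * ev d' x) (hinj : Function.Injective ev)
    (heq : ∀ σ d x, ev (act' σ d) (act σ x) = φ σ (ev d x)) :
    ∃ S : Subalgebra R (G' → K), IsOrder φ act' S ∧
      (∀ f ∈ S, ∃ v : G → K, (∀ a ∈ H, ∃ r : R, algebraMap R K r = ∑ x, v x * a x) ∧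
        f = fun d => ∑ x, v x * ev d x) ∧
      ∃ (ι : Type) (_ : Fintype ι) (f : ι → G' → K) (a : ι → G → K),
          (∀ i, f i ∈ S) ∧ (∀ i, a i ∈ H) ∧ ∀ d x, ev d x = ∑ i, f i d * a i x := by
  classical
  have := Fintype.ofFinite G'
  obtain ⟨ι, _, b, hb, hbs⟩ := hH.exists_basis hfix
  let bK : Module.Basis ι K (G → K) := Module.Basis.mk hb hbs.ge
  have hbK : ∀ i, bK i = (b i : G → K) := fun i => Module.Basis.mk_apply _ _ i
  set w : ι → G → K := fun i x => bK.repr (Pi.single x 1) i with hw
  have hwrepr : ∀ (f : G → K) i, ∑ x, w i x * f x = bK.repr f i := by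
    intro f i
    conv_rhs => rw [show f = ∑ x, f x • Pi.single x (1 : K) by
      funext y; simp [Finset.sum_apply, Pi.single_apply, mul_ite]]
    rw [map_sum, Finsupp.coe_finsetSum, Finset.sum_apply]
    refine Finset.sum_congr rfl fun x _ => ?_
    rw [map_smul, Finsupp.smul_apply, smul_eq_mul, mul_comm]
  have hdelta : ∀ x y, ∑ i, w i x * (b i : G → K) y = Pi.single (M := fun _ : G => K) x 1 y := by
    intro x y
    conv_rhs => rw [← bK.sum_repr (Pi.single x 1)]
    simp [Finset.sum_apply, hbK, hw]
  have hweq : ∀ σ i x, w i (act σ x) = φ σ (w i x) := by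
    intro σ i x
    have hinjσ : Function.Injective (act σ) :=
      Finite.injective_iff_surjective.2 (act_surjective (act := act) σ)
    have h0 : ∑ j, (w j (act σ x) - φ σ (w j x)) • bK j = 0 := by
      funext y
      obtain ⟨u, rfl⟩ := act_surjective (act := act) σ y
      simp only [Finset.sum_apply, Pi.smul_apply, smul_eq_mul, hbK, sub_mul, Pi.zero_apply,
        Finset.sum_sub_distrib, sub_eq_zero]
      rw [hdelta, show ∑ j, φ σ (w j x) * (b j : G → K) (act σ u) = φ σ (∑ j, w j x * (b j : G → K) u) by
        rw [map_sum]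
        exact Finset.sum_congr rfl fun j _ => by rw [map_mul, hH.equivariant _ (b j).2], hdelta]
      by_cases hxu : u = x
      · subst hxu; simp
      · rw [Pi.single_eq_of_ne (fun e => hxu (hinjσ e)), Pi.single_eq_of_ne hxu, map_zero]
    exact sub_eq_zero.1 (Fintype.linearIndependent_iff.1 bK.linearIndependent _ h0 i)
  -- functions with all pairings in `R`
  set F : (G → K) → (G' → K) := fun v d => ∑ x, v x * ev d x with hF
  set S : Submodule R (G' → K) := Submodule.span R (Set.range fun i => F (w i)) with hS
  have hmemS : ∀ v : G → K, (∀ i, ∃ r : R, algebraMap R K r = ∑ x, v x * (b i : G → K) x) →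
      F v ∈ S := by
    intro v hv
    choose r hr using hv
    have hveq : ∀ x, v x = ∑ i, algebraMap R K (r i) * w i x := by
      intro x
      simp only [hr, Finset.sum_mul]
      rw [Finset.sum_comm]
      have : ∀ u, ∑ i, v u * (b i : G → K) u * w i x = v u * Pi.single (M := fun _ : G => K) x 1 u :=
        fun u => by
          rw [← hdelta, Finset.mul_sum]
          exact Finset.sum_congr rfl fun i _ => by ring
      rw [Finset.sum_congr rfl fun u _ => this u]
      simp [Pi.single_apply, mul_ite]
    have : F v = ∑ i, r i • F (w i) := by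
      funext d
      simp only [hF, Finset.sum_apply, Pi.smul_apply]
      simp only [Algebra.smul_def, Finset.mul_sum]
      rw [Finset.sum_comm]
      refine Finset.sum_congr rfl fun x _ => ?_
      rw [hveq x, Finset.sum_mul]
      exact Finset.sum_congr rfl fun i _ => by ring
    rw [this]
    exact Submodule.sum_mem _ fun i _ => Submodule.smul_mem _ _ (Submodule.subset_span ⟨i, rfl⟩)
  have hpair : ∀ a ∈ H, ∀ i, ∃ r : R, algebraMap R K r = ∑ x, w i x * a x := by
    intro a ha i
    refine ⟨b.repr ⟨a, ha⟩ i, ?_⟩
    have hsum : a = ∑ j, algebraMap R K (b.repr ⟨a, ha⟩ j) • bK j := by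
      have h1 := congrArg (Subtype.val : ↥H → G → K) (b.sum_repr ⟨a, ha⟩)
      rw [AddSubmonoidClass.coe_finsetSum] at h1
      refine h1.symm.trans (Finset.sum_congr rfl fun j _ => ?_)
      rw [hbK, algebraMap_smul]
      rfl
    rw [hwrepr]
    conv_rhs => rw [hsum]
    rw [map_sum, Finsupp.finsetSum_apply]
    simp only [map_smul, Finsupp.smul_apply, Module.Basis.repr_self, smul_eq_mul]
    rw [Finset.sum_eq_single i (fun j _ hj => by rw [Finsupp.single_eq_of_ne (Ne.symm hj), mul_zero])
      (fun h => absurd (Finset.mem_univ i) h), Finsupp.single_eq_same, mul_one]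
  have hone : (1 : G' → K) ∈ S := by
    have h1 : F (Pi.single 0 1) = 1 := by
      funext d
      simp [hF, Pi.single_apply, ite_mul, hzero]
    rw [← h1]
    refine hmemS _ fun i => ?_
    obtain ⟨r, hr⟩ := hH.exists_eq_apply_zero hfix (b i)
    exact ⟨r, by rw [hr]; simp [Pi.single_apply, ite_mul]⟩
  have hwmul : ∀ i j, F (w i) * F (w j) ∈ S := by
    intro i j
    have h1 : F (w i) * F (w j) = F (fun z => ∑ x, w i x * w j (z - x)) := by
      funext d
      simp only [hF, Pi.mul_apply, Finset.sum_mul_sum]
      rw [show ∑ z, (∑ x, w i x * w j (z - x)) * ev d z = ∑ z, ∑ x, w i x * w j (z - x) * ev d z from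
        Finset.sum_congr rfl fun z _ => Finset.sum_mul _ _ _, Finset.sum_comm (f := fun z x => _ * ev d z)]
      refine Finset.sum_congr rfl fun x _ => ?_
      refine Fintype.sum_equiv (Equiv.addLeft x) _ _ fun y => ?_
      simp only [Equiv.coe_addLeft, add_sub_cancel_left, hadd]
      ring
    rw [h1]
    refine hmemS _ fun l => ?_
    obtain ⟨A, hA, hA'⟩ := exists_eq_sum_mul_basis (S' := Subalgebra.toSubmodule H) b
      (hH.comul _ (b l).2)
    choose r hr using fun m => hpair _ (hA m) i
    choose r' hr' using fun m => hpair _ (b m).2 j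
    refine ⟨∑ m, r m * r' m, ?_⟩
    simp only [map_sum, map_mul, hr, hr', Finset.sum_mul_sum]
    rw [show ∑ z, (∑ x, w i x * w j (z - x)) * (b l : G → K) z =
        ∑ x, ∑ z, w i x * w j (z - x) * (b l : G → K) z by
      rw [Finset.sum_comm]; exact Finset.sum_congr rfl fun z _ => Finset.sum_mul _ _ _]
    rw [Finset.sum_comm]
    refine Finset.sum_congr rfl fun x _ => ?_
    rw [Finset.sum_comm]
    refine Fintype.sum_equiv (Equiv.addLeft x) _ _ fun y => ?_
    rw [Equiv.coe_addLeft]
    show _ = w i x * w j (x + y - x) * (b l : G → K) (x + y)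
    have h2 : (b l : G → K) (x + y) = ∑ m, A m x * (b m : G → K) y := hA' x y
    rw [add_sub_cancel_left, h2, Finset.mul_sum]
    exact Finset.sum_congr rfl fun m _ => by ring
  have hmulS : ∀ f g, f ∈ S → g ∈ S → f * g ∈ S := by
    intro f g hf hg
    induction hf using Submodule.span_induction with
    | mem f hf =>
      obtain ⟨i, rfl⟩ := hf
      induction hg using Submodule.span_induction with
      | mem g hg => obtain ⟨j, rfl⟩ := hg; exact hwmul i j
      | zero => rw [mul_zero]; exact zero_mem _
      | add _ _ _ _ h1 h2 => rw [mul_add]; exact add_mem h1 h2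
      | smul r _ _ h1 => rw [Algebra.mul_smul_comm]; exact Submodule.smul_mem _ r h1
    | zero => rw [zero_mul]; exact zero_mem _
    | add _ _ _ _ h1 h2 => rw [add_mul]; exact add_mem h1 h2
    | smul r _ _ h1 => rw [Algebra.smul_mul_assoc]; exact Submodule.smul_mem _ r h1
  refine ⟨S.toSubalgebra hone hmulS, ⟨?_, ?_, ?_, ?_⟩, ?_, ?_⟩
  case refine_5 =>
    intro f hf
    change f ∈ S at hf
    induction hf using Submodule.span_induction with
    | mem f hf =>
      obtain ⟨i, rfl⟩ := hf
      exact ⟨w i, fun a ha => hpair a ha i, rfl⟩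
    | zero => exact ⟨0, fun a _ => ⟨0, by simp⟩, funext fun d => by simp⟩
    | add f g _ _ hf hg =>
      obtain ⟨u, hu, rfl⟩ := hf
      obtain ⟨u', hu', rfl⟩ := hg
      refine ⟨u + u', fun a ha => ?_, funext fun d => by simp [add_mul, Finset.sum_add_distrib]⟩
      obtain ⟨r, hr⟩ := hu a ha
      obtain ⟨r', hr'⟩ := hu' a ha
      exact ⟨r + r', by simp [hr, hr', add_mul, Finset.sum_add_distrib]⟩
    | smul r f _ hf =>
      obtain ⟨u, hu, rfl⟩ := hf
      refine ⟨r • u, fun a ha => ?_, funext fun d => by simp [Finset.smul_sum]⟩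
      obtain ⟨r', hr'⟩ := hu a ha
      exact ⟨r * r', by simp [hr', Algebra.smul_def, Finset.mul_sum, mul_assoc]⟩
  case refine_6 =>
    have hev : ∀ d x, ev d x = ∑ i, F (w i) d * (b i : G → K) x := fun d x => by
      conv_lhs => rw [← bK.sum_repr (ev d)]
      simp only [Finset.sum_apply, Pi.smul_apply, smul_eq_mul, hbK]
      refine Finset.sum_congr rfl fun i _ => ?_
      rw [← hwrepr]
    exact ⟨ι, inferInstance, fun i => F (w i), fun i => (b i : G → K),
      fun i => Submodule.subset_span ⟨i, rfl⟩, fun i => (b i).2, hev⟩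
  · rw [Submodule.toSubalgebra_toSubmodule]
    exact Submodule.fg_span (Set.finite_range _)
  · intro f hf σ d
    change f ∈ S at hf
    induction hf using Submodule.span_induction with
    | mem f hf =>
      obtain ⟨i, rfl⟩ := hf
      show ∑ x, w i x * ev (act' σ d) x = φ σ (∑ x, w i x * ev d x)
      rw [map_sum]
      refine (Fintype.sum_bijective (act σ) ⟨Finite.injective_iff_surjective.2
        (act_surjective (act := act) σ), act_surjective σ⟩ _ _ fun x => ?_).symm
      rw [map_mul, hweq, heq]
    | zero => simp
    | add _ _ _ _ h1 h2 => simp only [Pi.add_apply, h1, h2, map_add]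
    | smul r _ _ h1 => simp only [Pi.smul_apply, h1, map_smul]
  · refine span_eq_top_of_forall_sum _ fun c hc => ?_
    have hχ := (linearIndependent_monoidHom (Multiplicative G) K).comp
      (fun d => ({ toFun := fun x => ev d x.toAdd, map_one' := hzero d,
                   map_mul' := fun x y => hadd d _ _ } : Multiplicative G →* K))
      (fun d d' hdd' => hinj (funext fun x => DFunLike.congr_fun hdd' (Multiplicative.ofAdd x)))
    rw [Fintype.linearIndependent_iff] at hχ
    refine funext (hχ c (funext fun x => ?_))
    simp only [Function.comp_apply, Finset.sum_apply, Pi.smul_apply, smul_eq_mul, Pi.zero_apply]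
    show ∑ d, c d * ev d x.toAdd = 0
    have h1 : ∀ i, ∑ u, w i u * (∑ d, c d * ev d u) = 0 := fun i => by
      have h2 := hc (F (w i)) (Submodule.subset_span ⟨i, rfl⟩)
      refine Eq.trans ?_ h2
      simp only [hF, Finset.mul_sum]
      rw [Finset.sum_comm]
      exact Finset.sum_congr rfl fun u _ => Finset.sum_congr rfl fun d _ => by ring
    have h3 : bK.repr (fun u => ∑ d, c d * ev d u) = 0 :=
      Finsupp.ext fun i => by rw [← hwrepr]; exact h1 i
    exact congrFun (bK.repr.map_eq_zero_iff.1 h3) x.toAdd
  · intro f hf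
    change f ∈ S at hf
    induction hf using Submodule.span_induction with
    | zero => exact zero_mem (prodSpan _ _)
    | add f g _ _ h1 h2 => exact add_mem h1 h2
    | smul r f _ h1 => exact Submodule.smul_mem _ r h1
    | mem f hf =>
      obtain ⟨i, rfl⟩ := hf
      choose r hr using fun j l => hpair _ (mul_mem (b j).2 (b l).2) i
      have e : (fun z : G' × G' => F (w i) (z.1 + z.2)) =
          ∑ j, ∑ l, r j l • fun z : G' × G' => F (w j) z.1 * F (w l) z.2 := by
        funext z
        simp only [hF, Finset.sum_apply, Pi.smul_apply]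
        simp only [Algebra.smul_def, hr, hmul, Pi.mul_apply]
        simp only [Finset.mul_sum, Finset.sum_mul]
        -- collect the sums and use the delta identity
        have key : ∀ u v : G, ∑ j, ∑ l, ∑ x, w i x * ((b j : G → K) x * (b l : G → K) x) *
            (w j u * ev z.1 u * (w l v * ev z.2 v)) =
            if u = v then w i u * (ev z.1 u * ev z.2 u) else 0 := by
          intro u v
          rw [Finset.sum_congr rfl fun j _ => Finset.sum_comm, Finset.sum_comm]
          have : ∀ x, ∑ j, ∑ l, w i x * ((b j : G → K) x * (b l : G → K) x) *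
              (w j u * ev z.1 u * (w l v * ev z.2 v)) =
              w i x * ev z.1 u * ev z.2 v * ((∑ j, w j u * (b j : G → K) x) *
                (∑ l, w l v * (b l : G → K) x)) := fun x => by
            rw [Finset.sum_mul_sum, Finset.mul_sum]
            refine Finset.sum_congr rfl fun j _ => ?_
            rw [Finset.mul_sum]
            exact Finset.sum_congr rfl fun l _ => by ring
          rw [Finset.sum_congr rfl fun x _ => this x]
          simp only [hdelta]
          split_ifs with huv
          · subst huv
            simp [Pi.single_apply, mul_assoc]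
          · simp [Pi.single_apply, Ne.symm huv]
        have hd : ∑ u, w i u * (ev z.1 u * ev z.2 u) = ∑ u, ∑ v,
            if u = v then w i u * (ev z.1 u * ev z.2 u) else 0 := by simp
        rw [hd]
        simp only [← key]
        rw [Finset.sum_congr rfl fun u _ => Finset.sum_comm, Finset.sum_comm]
        refine Finset.sum_congr rfl fun j _ => ?_
        rw [Finset.sum_congr rfl fun u _ => Finset.sum_comm, Finset.sum_comm]
        refine Finset.sum_congr rfl fun l _ => ?_
        rw [Finset.sum_congr rfl fun u _ => Finset.sum_comm, Finset.sum_comm]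
        refine Eq.trans ?_ (Finset.sum_congr rfl fun _ _ => Finset.sum_comm)
        refine Eq.trans ?_ Finset.sum_comm
        exact Finset.sum_congr rfl fun _ _ => Finset.sum_comm
      rw [e]
      exact Submodule.sum_mem _ fun j _ => Submodule.sum_mem _ fun l _ => Submodule.smul_mem _ _
        (Submodule.subset_span ⟨_, Submodule.subset_span ⟨j, rfl⟩, _,
          Submodule.subset_span ⟨l, rfl⟩, rfl⟩)

/-- Cartier duality: a group in perfect pairing with (a quotient of) a group with a model. -/
theorem HasOrder.of_pairing (hfix : FixedIsFrac φ) (h : HasOrder φ act) (ev : G' → G → K)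
    (hadd : ∀ d x y, ev d (x + y) = ev d x * ev d y) (hzero : ∀ d, ev d 0 = 1)
    (hmul : ∀ d d' x, ev (d + d') x = ev d x * ev d' x) (hinj : Function.Injective ev)
    (heq : ∀ σ d x, ev (act' σ d) (act σ x) = φ σ (ev d x)) :
    HasOrder φ act' := by
  obtain ⟨H, hH⟩ := h
  have := Fintype.ofFinite G
  obtain ⟨S, hS, -⟩ := hH.exists_dualOrder hfix ev hadd hzero hmul hinj heq
  exact ⟨S, hS⟩

/-- A finite flat cocommutative Hopf algebra gives an order. -/
theorem hasOrder_of_hasModel (h : HasModel φ act) : HasOrder φ act := by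
  obtain ⟨H, _, _, hfin, -, -, e, hadd, heq⟩ := h
  let ev : H →ₐ[R] (G → K) := AlgHom.pi fun x => (e.symm x).ofConv
  refine ⟨ev.range, ?_, ?_, span_eq_top_of_separates _ fun x y hxy => ?_, ?_⟩
  · rw [← Algebra.map_top, Subalgebra.map_toSubmodule, Algebra.top_toSubmodule]
    exact hfin.fg_top.map _
  · rintro _ ⟨a, rfl⟩ σ x
    let g : WithConv (H →ₐ[R] K) := WithConv.toConv ((φ σ).toAlgHom.comp (e.symm x).ofConv)
    have h1 : e g = act σ x := by
      have := heq σ (e.symm x) g fun h => rfl
      rwa [Equiv.apply_symm_apply] at this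
    show (e.symm (act σ x)).ofConv a = φ σ ((e.symm x).ofConv a)
    rw [← h1, Equiv.symm_apply_apply]
    rfl
  · apply e.symm.injective
    exact congrArg WithConv.toConv (AlgHom.ext fun a => hxy _ ⟨a, rfl⟩)
  · rintro _ ⟨a, rfl⟩
    have e1 : (fun z : G × G => ev a (z.1 + z.2)) = fun z =>
        Algebra.TensorProduct.lmul' R (Algebra.TensorProduct.map (e.symm z.1).ofConv
          (e.symm z.2).ofConv (Coalgebra.comul (R := R) a)) := by
      funext z
      show (e.symm (z.1 + z.2)).ofConv a = _
      rw [show e.symm (z.1 + z.2) = e.symm z.1 * e.symm z.2 by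
        rw [Equiv.symm_apply_eq, hadd, Equiv.apply_symm_apply, Equiv.apply_symm_apply]]
      rfl
    show (fun z : G × G => ev a (z.1 + z.2)) ∈ _
    rw [e1]
    generalize Coalgebra.comul (R := R) a = t
    induction t using TensorProduct.induction_on with
    | zero => simp only [map_zero]; exact zero_mem _
    | tmul p q => exact Submodule.subset_span ⟨ev p, ⟨p, rfl⟩, ev q, ⟨q, rfl⟩, rfl⟩
    | add p q hp hq => simp only [map_add]; exact add_mem hp hq

end FLTAgent.FlatHopf

end
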