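import Fermat.Agent.FlatHopf.Rat
import Fermat.Agent.Reps.Unramified
import Fermat.Agent.GalCommon.Burnside

/-!
# Flatness at `p` of Hecke-Galois data

If the `p ^ m`-torsion of the Jacobian (in the coordinates of a `GalModel`) has finite flat models,
then so does every finite quotient of a residually absolutely irreducible Hecke-Galois datum
(`isFlatAt_of_galModel`): such a quotient is a subquotient of powers of the torsion and of its
Cartier dual (`hasFlatModel_pairAct`, `HasFlatModel.of_endHom`).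
-/

set_option autoImplicit false
set_option linter.unusedSectionVars false

noncomputable section

open CuspForm Matrix
open IsLocalRing (maximalIdeal)

namespace FLTAgent.FlatHopf

open FLTAgent.Reps

local notation "Γℚ" => (AlgebraicClosure ℚ ≃ₐ[ℚ] AlgebraicClosure ℚ)
local notation "ℚ̄" => AlgebraicClosure ℚ

variable {N : ℕ} [NeZero N] {p : ℕ} [Fact p.Prime]

instance neZero_prime_pow (m : ℕ) : NeZero (p ^ m) := ⟨pow_ne_zero m (Fact.out : p.Prime).ne_zero⟩

/-- The action on `J[p^m]`, in coordinates. -/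
def torsAct (G : GalModel N p) (m : ℕ) : Γℚ →* AddMonoid.End (Fin G.r → ZMod (p ^ m)) where
  toFun σ := (Matrix.toLin' (G.MMod m σ)).toAddMonoidHom
  map_one' := by ext1 x; show Matrix.toLin' (G.MMod m 1) x = x; rw [map_one, Matrix.toLin'_one]; rfl
  map_mul' σ τ := by
    ext1 x
    show Matrix.toLin' (G.MMod m (σ * τ)) x = Matrix.toLin' (G.MMod m σ) (Matrix.toLin' (G.MMod m τ) x)
    rw [map_mul, Matrix.toLin'_mul]; rfl

theorem torsAct_apply (G : GalModel N p) (m : ℕ) (σ : Γℚ) (x : Fin G.r → ZMod (p ^ m)) :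
    torsAct G m σ x = G.MMod m σ *ᵥ x := rfl

/-- The action on the Cartier dual, in coordinates. -/
def dualAct (G : GalModel N p) (m : ℕ) : Γℚ →* AddMonoid.End (Fin G.r → ZMod (p ^ m)) where
  toFun σ := (cycMod p m σ • Matrix.vecMulLinear (G.MMod m σ⁻¹)).toAddMonoidHom
  map_one' := by
    ext1 x
    show cycMod p m 1 • (x ᵥ* G.MMod m 1⁻¹) = x
    rw [inv_one, map_one, map_one, Matrix.vecMul_one, one_smul]
  map_mul' σ τ := by
    ext1 x
    show cycMod p m (σ * τ) • (x ᵥ* G.MMod m (σ * τ)⁻¹) =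
      cycMod p m σ • ((cycMod p m τ • (x ᵥ* G.MMod m τ⁻¹)) ᵥ* G.MMod m σ⁻¹)
    rw [Matrix.smul_vecMul, Matrix.vecMul_vecMul, smul_smul, _root_.mul_inv_rev, map_mul, map_mul]

theorem dualAct_apply (G : GalModel N p) (m : ℕ) (σ : Γℚ) (x : Fin G.r → ZMod (p ^ m)) :
    dualAct G m σ x = cycMod p m σ • (x ᵥ* G.MMod m σ⁻¹) := rfl

theorem hasFlatModel_dualAct (G : GalModel N p) (m : ℕ) (h : HasFlatModel p (torsAct G m)) :
    HasFlatModel p (dualAct G m) := by
  obtain ⟨ζ, hζ⟩ := HasEnoughRootsOfUnity.exists_primitiveRoot ℚ̄ (p ^ m)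
  let ψ : AddChar (ZMod (p ^ m)) ℚ̄ := AddChar.zmodChar (p ^ m) hζ.pow_eq_one
  have hψinj : Function.Injective ψ := fun a b hab =>
    ZMod.val_injective _ (hζ.pow_inj a.val_lt b.val_lt hab)
  refine h.of_pairing (fun d x => ψ (d ⬝ᵥ x)) (fun d x y => ?_) (fun d => ?_) (fun d d' x => ?_)
    (fun d d' hdd' => ?_) fun σ d x => ?_
  · rw [dotProduct_add, AddChar.map_add_eq_mul]
  · rw [dotProduct_zero, AddChar.map_zero_eq_one]
  · rw [add_dotProduct, AddChar.map_add_eq_mul]
  · funext i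
    have h1 := hψinj (congrFun hdd' (Pi.single i 1))
    simpa using h1
  · rw [dualAct_apply, torsAct_apply, smul_dotProduct, ← Matrix.dotProduct_mulVec,
      Matrix.mulVec_mulVec, ← map_mul, inv_mul_cancel, map_one, Matrix.one_mulVec]
    set a := d ⬝ᵥ x
    rw [cycMod_spec p m σ (by
        rw [← AddChar.map_nsmul_eq_pow, nsmul_eq_mul, ZMod.natCast_self, zero_mul,
          AddChar.map_zero_eq_one] : ψ a ^ p ^ m = 1),
      ← AddChar.map_nsmul_eq_pow, nsmul_eq_mul, ZMod.natCast_zmod_val, smul_eq_mul]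

/-- The action on pairs of matrices: `(X, X') ↦ (M σ X, χ σ X' (M σ⁻¹))`. -/
def pairAct (G : GalModel N p) (m : ℕ) :
    Γℚ →* AddMonoid.End (Matrix (Fin G.r) (Fin G.r) (ZMod (p ^ m)) ×
      Matrix (Fin G.r) (Fin G.r) (ZMod (p ^ m))) where
  toFun σ := AddMonoidHom.prodMap (AddMonoidHom.mulLeft (G.MMod m σ))
    (AddMonoidHom.mulRight (cycMod p m σ • G.MMod m σ⁻¹))
  map_one' := by
    ext1 z
    show (G.MMod m 1 * z.1, z.2 * (cycMod p m 1 • G.MMod m 1⁻¹)) = z
    rw [inv_one, map_one, map_one, one_mul, one_smul, mul_one]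
  map_mul' σ τ := by
    ext1 z
    show (G.MMod m (σ * τ) * z.1, z.2 * (cycMod p m (σ * τ) • G.MMod m (σ * τ)⁻¹)) =
      (G.MMod m σ * (G.MMod m τ * z.1),
        z.2 * (cycMod p m τ • G.MMod m τ⁻¹) * (cycMod p m σ • G.MMod m σ⁻¹))
    rw [_root_.mul_inv_rev, map_mul, map_mul, map_mul, mul_assoc, mul_assoc, smul_mul_smul_comm,
      mul_comm (cycMod p m τ)]

theorem pairAct_apply (G : GalModel N p) (m : ℕ) (σ : Γℚ)
    (z : Matrix (Fin G.r) (Fin G.r) (ZMod (p ^ m)) × Matrix (Fin G.r) (Fin G.r) (ZMod (p ^ m))) :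
    pairAct G m σ z = (G.MMod m σ * z.1, z.2 * (cycMod p m σ • G.MMod m σ⁻¹)) := rfl

theorem hasFlatModel_pairAct (G : GalModel N p) (m : ℕ) (h : HasFlatModel p (torsAct G m)) :
    HasFlatModel p (pairAct G m) := by
  refine ((h.pi (Fin G.r)).prod ((hasFlatModel_dualAct G m h).pi (Fin G.r))).of_addEquiv
    ((Matrix.transposeAddEquiv (Fin G.r) (Fin G.r) (ZMod (p ^ m))).prodCongr (AddEquiv.refl _))
    fun σ z => ?_
  refine Prod.ext ?_ ?_
  · ext i j
    show (G.MMod m σ *ᵥ (z.1 j)) i = (G.MMod m σ * (Matrix.of z.1)ᵀ) i j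
    rfl
  · ext i j
    show (cycMod p m σ • (z.2 i ᵥ* G.MMod m σ⁻¹)) j =
      ((Matrix.of z.2) * (cycMod p m σ • G.MMod m σ⁻¹)) i j
    rw [Matrix.mul_smul]
    rfl

variable {S : Finset ℕ} {𝒪 : Type} [CommRing 𝒪] [IsDomain 𝒪] [IsDiscreteValuationRing 𝒪]
  [IsAdicComplete (maximalIdeal 𝒪) 𝒪]
  {θ : CuspForm.heckeAlgebra N 2 (↑S : Set ℕ) →+* IsLocalRing.ResidueField 𝒪}
  {T : Type} [CommRing T] [IsLocalRing T] [IsNoetherianRing T]
  [IsAdicComplete (maximalIdeal T) T] [Algebra 𝒪 T] [IsLocalHom (algebraMap 𝒪 T)]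
  [Module.Finite 𝒪 T] [Module.Free 𝒪 T]

/-- A finite module generated over a group with a model has a model. -/
theorem HasFlatModel.of_endHom {M Q : Type} [AddCommGroup M] [Finite M] [AddCommGroup Q] [Finite Q]
    {actM : Γℚ →* AddMonoid.End M} {actQ : Γℚ →* AddMonoid.End Q} (h : HasFlatModel p actM)
    (φ : M →+ AddMonoid.End Q) (hφ : ∀ σ x v, φ (actM σ x) v = actQ σ (φ x v))
    (e : M) (he : ∀ v, φ e v = v) : HasFlatModel p actQ := by
  classical
  have := Fintype.ofFinite Q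
  let π : (Q → M) →+ Q :=
    { toFun := fun f => ∑ v, φ (f v) v
      map_zero' := by simp
      map_add' := fun f f' => by
        simp only [Pi.add_apply, map_add]
        exact Finset.sum_add_distrib }
  refine (h.pi Q).of_surjective π (fun v => ⟨Pi.single v e, ?_⟩) fun σ f => ?_
  · show ∑ w, φ (Pi.single (M := fun _ : Q => M) v e w) w = v
    rw [Finset.sum_eq_single v (fun w _ hw => by rw [Pi.single_eq_of_ne hw, map_zero]; rfl)
      (fun hv => absurd (Finset.mem_univ v) hv), Pi.single_eq_same, he]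
  · show ∑ v, φ (actM σ (f v)) v = actQ σ (∑ v, φ (f v) v)
    rw [map_sum]
    exact Finset.sum_congr rfl fun v _ => hφ σ (f v) v

theorem mem_smul_top_of_forall_trace (ρ : GaloisRepAdic T) (h : ρ.residual.IsAbsolutelyIrreducible)
    (I : Ideal T) (E : Module.End T ρ.V)
    (hE : ∀ g, LinearMap.trace T ρ.V (E * ρ.ρ g) ∈ I) (v : ρ.V) :
    E v ∈ I • (⊤ : Submodule T ρ.V) := by
  classical
  have hall : ∀ Y : Module.End T ρ.V, LinearMap.trace T ρ.V (E * Y) ∈ I := by
    intro Y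
    have hY : Y ∈ Submodule.span T (Set.range ρ.ρ) :=
      (GalCommon.span_range_eq_top ρ h).ge Submodule.mem_top
    induction hY using Submodule.span_induction with
    | mem Y hY => obtain ⟨g, rfl⟩ := hY; exact hE g
    | zero => rw [mul_zero, map_zero]; exact I.zero_mem
    | add A B _ _ hA hB => rw [mul_add, map_add]; exact I.add_mem hA hB
    | smul a A _ hA => rw [mul_smul_comm, map_smul]; exact I.mul_mem_left a hA
  let b := Module.Free.chooseBasis T ρ.V
  rw [← b.sum_repr (E v)]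
  refine Submodule.sum_mem _ fun i _ => Submodule.smul_mem_smul ?_ Submodule.mem_top
  have h1 := hall ((b.coord i).smulRight v)
  rw [LinearMap.trace_mul_comm,
    show (b.coord i).smulRight v * E = ((b.coord i).comp E).smulRight v from rfl,
    LinearMap.trace_smulRight] at h1
  simpa using h1

-- the proof elaborates many matrix terms
set_option maxHeartbeats 2000000 in
/-- Flatness at `p` of a Hecke-Galois datum from flatness of the torsion. -/
theorem isFlatAt_of_galModel (G : GalModel N p) (hG : ∀ m, HasFlatModel p (torsAct G m))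
    [Finite (IsLocalRing.ResidueField 𝒪)] (hp𝒪 : (p : 𝒪) ∈ maximalIdeal 𝒪) (hpS : p ∈ S)
    (hNS : ∀ q : ℕ, q.Prime → q ∣ N → q ∈ S)
    (H : CuspForm.HeckeGaloisRepDatum N (↑S : Set ℕ) 𝒪 θ T) : H.ρ.IsFlatAt p := by
  classical
  refine ⟨Finite.of_surjective (IsLocalRing.ResidueField.map (algebraMap 𝒪 T)) fun x => ?_, ?_⟩
  · obtain ⟨a, rfl⟩ := H.residue_surjective x
    exact ⟨IsLocalRing.residue 𝒪 a, rfl⟩
  intro I hI
  obtain ⟨n, hn⟩ : ∃ n, maximalIdeal T ^ n ≤ I := by
    by_cases htop : I = ⊤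
    · exact ⟨0, htop ▸ le_top⟩
    have : Nontrivial (T ⧸ I) := Ideal.Quotient.nontrivial_iff.2 htop
    have : IsLocalRing (T ⧸ I) :=
      IsLocalRing.of_surjective' (Ideal.Quotient.mk I) Ideal.Quotient.mk_surjective
    obtain ⟨n, hn⟩ := IsArtinianRing.isNilpotent_jacobson_bot (R := T ⧸ I)
    rw [IsLocalRing.jacobson_eq_maximalIdeal ⊥ bot_ne_top, Ideal.zero_eq_bot,
      ← IsLocalRing.map_maximalIdeal_of_surjective (Ideal.Quotient.mk I) Ideal.Quotient.mk_surjective,
      ← Ideal.map_pow, Ideal.map_eq_bot_iff_le_ker, Ideal.mk_ker] at hn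
    exact ⟨n, hn⟩
  obtain ⟨c, hc⟩ := G.tauMod_faithful (↑S : Set ℕ) H.π (natCast_mem_maximalIdeal (T := T) hp𝒪)
  set m := n + c with hm
  let Mat := Matrix (Fin G.r) (Fin G.r) (ZMod (p ^ m))
  let Y : Γℚ → (Mat × Mat) × Module.End T H.ρ.V := fun g =>
    ((G.MMod m g, cycMod p m g • G.MMod m g⁻¹), H.ρ.ρ g)
  let B : AddSubgroup ((Mat × Mat) × Module.End T H.ρ.V) := AddSubgroup.closure (Set.range Y)
  -- the trace relation on `B`
  have hB : ∀ b ∈ B, ∀ h : Γℚ, ∃ t : ↥(heckeAlgebra N 2 (↑S : Set ℕ)),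
      b.1.1 * G.MMod m h + (cycMod p m h • G.MMod m h⁻¹) * b.1.2 =
        G.tauMod m (Subalgebra.inclusion (heckeAlgebra_mono (Set.empty_subset _)) t) ∧
      Ideal.Quotient.mk (maximalIdeal T ^ n) (LinearMap.trace T H.ρ.V (b.2 * H.ρ.ρ h)) =
        Ideal.Quotient.mk (maximalIdeal T ^ n) (H.π t) := by
    intro b hb h
    induction hb using AddSubgroup.closure_induction with
    | mem b hb =>
      obtain ⟨g, rfl⟩ := hb
      obtain ⟨t, ht, htr⟩ := traceRel_all G hp𝒪 hpS hNS H (Nat.le_add_right n c) (g * h)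
      refine ⟨t, ?_, ?_⟩
      · refine Eq.trans ?_ ht
        show G.MMod m g * G.MMod m h + _ * (cycMod p m g • G.MMod m g⁻¹) = _
        rw [smul_mul_smul_comm, _root_.mul_inv_rev, map_mul, map_mul, map_mul,
          mul_comm (cycMod p m g)]
      · refine Eq.trans ?_ htr
        show _ = Ideal.Quotient.mk _ (LinearMap.trace T H.ρ.V (H.ρ.ρ (g * h)))
        rw [map_mul H.ρ.ρ]
    | zero => exact ⟨0, by simp, by simp⟩
    | add b b' _ _ hb hb' =>
      obtain ⟨t, ht, htr⟩ := hb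
      obtain ⟨t', ht', htr'⟩ := hb'
      refine ⟨t + t', ?_, ?_⟩
      · rw [map_add, map_add, ← ht, ← ht']
        simp only [Prod.fst_add, Prod.snd_add, add_mul, mul_add]
        abel
      · rw [map_add, map_add, ← htr, ← htr', Prod.snd_add, add_mul, map_add, map_add]
    | neg b _ hb =>
      obtain ⟨t, ht, htr⟩ := hb
      refine ⟨-t, ?_, ?_⟩
      · rw [map_neg, map_neg, ← ht]
        simp only [Prod.fst_neg, Prod.snd_neg, mul_neg, neg_add]
        exact congrArg₂ (· + ·) (neg_mul _ _) rfl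
      · rw [map_neg, map_neg, ← htr, Prod.snd_neg, neg_mul, map_neg, map_neg]
  have hkey : ∀ b ∈ B, b.1 = 0 → ∀ v, b.2 v ∈ I • (⊤ : Submodule T H.ρ.V) := by
    intro b hb hb0 v
    refine mem_smul_top_of_forall_trace H.ρ H.residual_absIrr I b.2 (fun g => hn ?_) v
    obtain ⟨t, ht, htr⟩ := hB b hb g
    rw [hb0, Prod.fst_zero, Prod.snd_zero, zero_mul, mul_zero, add_zero] at ht
    rw [← Ideal.Quotient.eq_zero_iff_mem, htr, Ideal.Quotient.eq_zero_iff_mem]
    exact hc n t ht.symm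
  -- the module `B₁` and its map to the endomorphisms of the quotient
  let B₁ : AddSubgroup (Mat × Mat) := B.map (AddMonoidHom.fst _ _)
  let pr : B →+ B₁ :=
    ((AddMonoidHom.fst (Mat × Mat) (Module.End T H.ρ.V)).comp B.subtype).codRestrict B₁
      fun b => ⟨b.1, b.2, rfl⟩
  have hpr : Function.Surjective pr := by
    rintro ⟨x, b, hb, rfl⟩
    exact ⟨⟨b, hb⟩, rfl⟩
  let Q := H.ρ.V ⧸ (I • (⊤ : Submodule T H.ρ.V))
  have hle : ∀ E : Module.End T H.ρ.V, I • (⊤ : Submodule T H.ρ.V) ≤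
      (I • (⊤ : Submodule T H.ρ.V)).comap E := fun E => by
    rw [← Submodule.map_le_iff_le_comap, Submodule.map_smul'']
    exact Submodule.smul_mono le_rfl le_top
  let endQ : Module.End T H.ρ.V →+ AddMonoid.End Q :=
    { toFun := fun E => (Submodule.mapQ _ _ E (hle E)).toAddMonoidHom
      map_zero' := by
        ext1 x; obtain ⟨v, rfl⟩ := Submodule.Quotient.mk_surjective _ x; rfl
      map_add' := fun E E' => by
        ext1 x; obtain ⟨v, rfl⟩ := Submodule.Quotient.mk_surjective _ x; rfl }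
  let evB : B →+ AddMonoid.End Q :=
    endQ.comp ((AddMonoidHom.snd (Mat × Mat) (Module.End T H.ρ.V)).comp B.subtype)
  have hker : pr.ker ≤ evB.ker := by
    intro b hb
    rw [AddMonoidHom.mem_ker] at hb ⊢
    ext1 x
    obtain ⟨v, rfl⟩ := Submodule.Quotient.mk_surjective _ x
    exact (Submodule.Quotient.mk_eq_zero _).2 (hkey b.1 b.2 (congrArg Subtype.val hb) v)
  let φ₁ : B₁ →+ AddMonoid.End Q := pr.liftOfSurjective hpr ⟨evB, hker⟩
  have hφ₁ : ∀ b, φ₁ (pr b) = evB b := fun b =>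
    AddMonoidHom.liftOfRightInverse_comp_apply _ _ _ ⟨evB, hker⟩ b
  -- stability of `B` under left translation
  have hstab : ∀ σ : Γℚ, ∀ b ∈ B, ((pairAct G m σ b.1, H.ρ.ρ σ * b.2) :
      (Mat × Mat) × Module.End T H.ρ.V) ∈ B := by
    intro σ b hb
    induction hb using AddSubgroup.closure_induction with
    | mem b hb =>
      obtain ⟨g, rfl⟩ := hb
      refine AddSubgroup.subset_closure ⟨σ * g, ?_⟩
      simp only [Y, pairAct_apply, map_mul, _root_.mul_inv_rev, smul_mul_smul_comm,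
        mul_comm (cycMod p m σ)]
    | zero =>
      convert B.zero_mem using 1
      simp
    | add b b' _ _ hb hb' => simpa [map_add, mul_add] using B.add_mem hb hb'
    | neg b _ hb => simpa [map_neg] using B.neg_mem hb
  have hstab₁ : ∀ σ : Γℚ, ∀ x ∈ B₁, pairAct G m σ x ∈ B₁ := by
    rintro σ _ ⟨b, hb, rfl⟩
    exact ⟨_, hstab σ b hb, rfl⟩
  let act₁ : Γℚ →* AddMonoid.End B₁ :=
    { toFun := fun σ => ((pairAct G m σ).comp B₁.subtype).codRestrict B₁ fun x => hstab₁ σ _ x.2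
      map_one' := by
        ext1 x; refine Subtype.ext ?_; show pairAct G m 1 x.1 = x.1; rw [map_one]; rfl
      map_mul' := fun σ τ => by
        ext1 x; refine Subtype.ext ?_
        show pairAct G m (σ * τ) x.1 = pairAct G m σ (pairAct G m τ x.1); rw [map_mul]; rfl }
  have hB₁ : HasFlatModel p act₁ :=
    (hasFlatModel_pairAct G m (hG m)).of_injective B₁.subtype Subtype.val_injective fun σ x => rfl
  let actQ : Γℚ →* AddMonoid.End Q :=
    { toFun := fun σ => (H.ρ.levelAction I σ).toAddMonoidHom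
      map_one' := by
        ext1 x; obtain ⟨v, rfl⟩ := Submodule.Quotient.mk_surjective _ x
        show Submodule.Quotient.mk (H.ρ.ρ 1 v) = Submodule.Quotient.mk v
        rw [map_one]; rfl
      map_mul' := fun σ τ => by
        ext1 x; obtain ⟨v, rfl⟩ := Submodule.Quotient.mk_surjective _ x
        show Submodule.Quotient.mk (H.ρ.ρ (σ * τ) v) = Submodule.Quotient.mk (H.ρ.ρ σ (H.ρ.ρ τ v))
        rw [map_mul]; rfl }
  have : Finite Q := by
    have : Module.Finite (T ⧸ I) Q := inferInstance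
    exact Module.finite_of_finite (T ⧸ I)
  show HasFlatModel p actQ
  refine hB₁.of_endHom φ₁ (fun σ x v => ?_) (pr ⟨Y 1, AddSubgroup.subset_closure ⟨1, rfl⟩⟩) fun v => ?_
  · obtain ⟨b, rfl⟩ := hpr x
    rw [show act₁ σ (pr b) = pr ⟨_, hstab σ b.1 b.2⟩ from Subtype.ext rfl, hφ₁, hφ₁]
    obtain ⟨u, rfl⟩ := Submodule.Quotient.mk_surjective _ v
    rfl
  · rw [hφ₁]
    obtain ⟨u, rfl⟩ := Submodule.Quotient.mk_surjective _ v
    show Submodule.Quotient.mk (H.ρ.ρ 1 u) = Submodule.Quotient.mk u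
    rw [map_one H.ρ.ρ]
    rfl

end FLTAgent.FlatHopf

end
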