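import Fermat.Agent.FlatHopf.Dual
import Fermat.Prelude.Def_GaloisRep_Flat

/-!
# Finite flat models over `ℤ_(p)`

`HasFlatModel p act`: the finite abelian group `G` with the action `act` of `Gal(ℚ̄/ℚ)` is the group
of `ℚ̄`-points of a finite flat cocommutative Hopf algebra over `ℤ_(p)`; equivalently it has an
order (`hasFlatModel_iff_hasOrder`).  The operations on orders give closure under subgroups,
quotients, products, powers and Cartier duality (`HasFlatModel.of_injective`, `.of_surjective`,
`.prod`, `.pi`, `.of_pairing`).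
-/

set_option autoImplicit false
set_option linter.unusedSectionVars false

noncomputable section

namespace FLTAgent.FlatHopf

open scoped TensorProduct

local notation "Γℚ" => (AlgebraicClosure ℚ ≃ₐ[ℚ] AlgebraicClosure ℚ)
local notation "ℚ̄" => AlgebraicClosure ℚ

/-- The group of points of a finite flat model over `ℤ_(p)`. -/
def HasFlatModel (p : ℕ) {G : Type} [AddCommGroup G] (act : Γℚ →* AddMonoid.End G) : Prop :=
  ∃ (H : Type) (_ : CommRing H) (_ : HopfAlgebra (GaloisRep.ratLocalizedAt p) H),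
    Module.Finite (GaloisRep.ratLocalizedAt p) H ∧ Module.Flat (GaloisRep.ratLocalizedAt p) H ∧
    Coalgebra.IsCocomm (GaloisRep.ratLocalizedAt p) H ∧
    ∃ e : WithConv (H →ₐ[GaloisRep.ratLocalizedAt p] ℚ̄) ≃ G,
      (∀ f g, e (f * g) = e f + e g) ∧
      ∀ (σ : Γℚ) (f g : WithConv (H →ₐ[GaloisRep.ratLocalizedAt p] ℚ̄)),
        (∀ h : H, g h = σ (f h)) → e g = act σ (e f)

variable {p : ℕ}

/-- `Gal(ℚ̄/ℚ)` acting by `ℤ_(p)`-algebra automorphisms. -/
def galR (p : ℕ) : Γℚ →* (ℚ̄ ≃ₐ[GaloisRep.ratLocalizedAt p] ℚ̄) where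
  toFun σ := σ.restrictScalars (GaloisRep.ratLocalizedAt p)
  map_one' := rfl
  map_mul' _ _ := rfl

theorem ratLocalizedAt_intCast_mem (n : ℤ) : (n : ℚ) ∈ GaloisRep.ratLocalizedAt p := by
  show ((n : ℚ)).den.Coprime p
  rw [Rat.den_intCast]; exact Nat.coprime_one_left p

instance isPrincipalIdealRing_ratLocalizedAt :
    IsPrincipalIdealRing (GaloisRep.ratLocalizedAt p) := by
  refine ⟨fun I => ?_⟩
  let f : ℤ →+* GaloisRep.ratLocalizedAt p := Int.castRingHom _
  obtain ⟨g, hg⟩ := (IsPrincipalIdealRing.principal (I.comap f)).principal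
  refine ⟨⟨f g, le_antisymm (fun x hx => ?_) ((Submodule.span_singleton_le_iff_mem _ _).2 ?_)⟩⟩
  · have hden : IsUnit (f ((x : ℚ).den : ℤ)) := by
      have hmem : ((x : ℚ).den : ℚ)⁻¹ ∈ GaloisRep.ratLocalizedAt p := by
        show (((x : ℚ).den : ℚ)⁻¹).den.Coprime p
        rw [Rat.inv_natCast_den, if_neg (x : ℚ).den_ne_zero]
        exact x.2
      refine IsUnit.of_mul_eq_one ⟨_, hmem⟩ (Subtype.ext ?_)
      show ((((x : ℚ).den : ℤ) : GaloisRep.ratLocalizedAt p) : ℚ) * _ = 1
      push_cast
      exact mul_inv_cancel₀ (Nat.cast_ne_zero.2 (x : ℚ).den_ne_zero)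
    have hnum : f (x : ℚ).num = x * f ((x : ℚ).den : ℤ) := Subtype.ext (by
      show (((x : ℚ).num : GaloisRep.ratLocalizedAt p) : ℚ) =
        (x : ℚ) * (((( x : ℚ).den : ℤ) : GaloisRep.ratLocalizedAt p) : ℚ)
      push_cast
      exact (Rat.mul_den_eq_num (x : ℚ)).symm)
    have h1 : (x : ℚ).num ∈ I.comap f := by
      rw [Ideal.mem_comap, hnum]; exact Ideal.mul_mem_right _ _ hx
    rw [hg, Submodule.mem_span_singleton] at h1
    obtain ⟨c, hc⟩ := h1
    obtain ⟨u, hu⟩ := hden
    refine Submodule.mem_span_singleton.2 ⟨f c * ↑u⁻¹, ?_⟩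
    calc (f c * ↑u⁻¹) • f g = f (c • g) * ↑u⁻¹ := by
            rw [smul_eq_mul, smul_eq_mul, map_mul]; ring
      _ = x * (↑u * ↑u⁻¹) := by rw [hc, hnum, hu, mul_assoc]
      _ = x := by rw [Units.mul_inv, mul_one]
  · exact Ideal.mem_comap.1 (hg ▸ Submodule.mem_span_singleton_self g)

instance faithfulSMul_ratLocalizedAt : FaithfulSMul (GaloisRep.ratLocalizedAt p) ℚ̄ :=
  (faithfulSMul_iff_algebraMap_injective _ _).2
    (((algebraMap ℚ ℚ̄).injective).comp Subtype.val_injective)

theorem fixedIsFrac_galR : FixedIsFrac (galR p) := by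
  intro x hx
  have : IsAlgClosure ℚ ℚ̄ := ⟨inferInstance, AlgebraicClosure.isAlgebraic ℚ⟩
  have : Algebra.IsAlgebraic ℚ ℚ̄ := AlgebraicClosure.isAlgebraic ℚ
  have : Normal ℚ ℚ̄ := IsAlgClosure.normal ℚ _
  have : IsGalois ℚ ℚ̄ := {}
  obtain ⟨q, rfl⟩ :=
    IntermediateField.mem_bot.1 ((InfiniteGalois.mem_bot_iff_fixed x).2 fun σ => hx σ)
  refine ⟨⟨(q.num : ℚ), ratLocalizedAt_intCast_mem _⟩, ⟨((q.den : ℤ) : ℚ),
    ratLocalizedAt_intCast_mem _⟩, fun h => q.den_ne_zero ?_, ?_⟩
  · have := congrArg Subtype.val h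
    simp at this
  · show algebraMap ℚ ℚ̄ ((q.den : ℤ) : ℚ) * algebraMap ℚ ℚ̄ q = algebraMap ℚ ℚ̄ (q.num : ℚ)
    rw [← map_mul]
    congr 1
    push_cast
    rw [mul_comm]
    exact Rat.mul_den_eq_num q

variable {G G' : Type} [AddCommGroup G] [Finite G] [AddCommGroup G'] [Finite G']
  {act : Γℚ →* AddMonoid.End G} {act' : Γℚ →* AddMonoid.End G'}

theorem hasFlatModel_iff : HasFlatModel p act ↔ HasModel (galR p) act := Iff.rfl

theorem hasFlatModel_iff_hasOrder : HasFlatModel p act ↔ HasOrder (galR p) act :=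
  ⟨fun h => hasOrder_of_hasModel h, fun ⟨_, h⟩ => h.hasModel fixedIsFrac_galR⟩

/-- Stable subgroups of groups with models have models. -/
theorem HasFlatModel.of_injective (h : HasFlatModel p act) (i : G' →+ G) (hi : Function.Injective i)
    (heq : ∀ σ x, i (act' σ x) = act σ (i x)) : HasFlatModel p act' :=
  hasFlatModel_iff_hasOrder.2 ((hasFlatModel_iff_hasOrder.1 h).of_injective i hi heq)

/-- Quotients of groups with models have models. -/
theorem HasFlatModel.of_surjective (h : HasFlatModel p act) (π : G →+ G')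
    (hπ : Function.Surjective π) (heq : ∀ σ x, π (act σ x) = act' σ (π x)) : HasFlatModel p act' :=
  hasFlatModel_iff_hasOrder.2
    ((hasFlatModel_iff_hasOrder.1 h).of_surjective fixedIsFrac_galR π hπ heq)

/-- Transport along an equivariant isomorphism. -/
theorem HasFlatModel.of_addEquiv (h : HasFlatModel p act) (e : G ≃+ G')
    (heq : ∀ σ x, e (act σ x) = act' σ (e x)) : HasFlatModel p act' :=
  h.of_surjective e.toAddMonoidHom e.surjective heq

/-- Products of groups with models have models. -/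
theorem HasFlatModel.prod (h : HasFlatModel p act) (h' : HasFlatModel p act') :
    HasFlatModel p (prodAct act act') :=
  hasFlatModel_iff_hasOrder.2 ((hasFlatModel_iff_hasOrder.1 h).prod (hasFlatModel_iff_hasOrder.1 h'))

theorem HasFlatModel.of_subsingleton [Subsingleton G] : HasFlatModel p act :=
  hasFlatModel_iff_hasOrder.2 HasOrder.of_subsingleton

/-- The coordinatewise action on a power. -/
def piAct (act : Γℚ →* AddMonoid.End G) (ι : Type) : Γℚ →* AddMonoid.End (ι → G) where
  toFun σ := AddMonoidHom.compLeft (act σ) ι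
  map_one' := by ext f i; show act 1 (f i) = f i; rw [map_one]; rfl
  map_mul' σ τ := by ext f i; show act (σ * τ) (f i) = _; rw [map_mul]; rfl

theorem piAct_apply {ι : Type} (σ : Γℚ) (f : ι → G) (i : ι) :
    piAct act ι σ f i = act σ (f i) := rfl

theorem HasFlatModel.pi_fin (h : HasFlatModel p act) : ∀ n, HasFlatModel p (piAct act (Fin n))
  | 0 => HasFlatModel.of_subsingleton
  | n + 1 => (h.prod (HasFlatModel.pi_fin h n)).of_addEquiv
      { toFun := fun x => Fin.cons x.1 x.2
        invFun := fun f => (f 0, Fin.tail f)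
        left_inv := fun x => by simp
        right_inv := fun f => by simp
        map_add' := fun x y => funext fun i => by refine Fin.cases ?_ ?_ i <;> simp }
      fun σ x => funext fun i => by
        refine Fin.cases ?_ ?_ i
        · simp [piAct_apply]
          rfl
        · intro j
          show (Fin.cons (act σ x.1) (piAct act (Fin n) σ x.2) : Fin (n + 1) → G) j.succ = _
          simp [piAct_apply]

/-- Powers of groups with models have models. -/
theorem HasFlatModel.pi (h : HasFlatModel p act) (ι : Type) [Finite ι] :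
    HasFlatModel p (piAct act ι) := by
  obtain ⟨n, ⟨e⟩⟩ := Finite.exists_equiv_fin ι
  exact (h.pi_fin n).of_addEquiv
    { toFun := fun f i => f (e i)
      invFun := fun f j => f (e.symm j)
      left_inv := fun f => funext fun j => by simp
      right_inv := fun f => funext fun i => by simp
      map_add' := fun _ _ => rfl } fun _ _ => rfl

/-- Cartier duality: a group paired injectively into `ℚ̄ˣ` with a group with a model. -/
theorem HasFlatModel.of_pairing (h : HasFlatModel p act) (ev : G' → G → ℚ̄)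
    (hadd : ∀ d x y, ev d (x + y) = ev d x * ev d y) (hzero : ∀ d, ev d 0 = 1)
    (hmul : ∀ d d' x, ev (d + d') x = ev d x * ev d' x) (hinj : Function.Injective ev)
    (heq : ∀ σ d x, ev (act' σ d) (act σ x) = σ (ev d x)) : HasFlatModel p act' :=
  hasFlatModel_iff_hasOrder.2
    ((hasFlatModel_iff_hasOrder.1 h).of_pairing fixedIsFrac_galR ev hadd hzero hmul hinj heq)

end FLTAgent.FlatHopf

end
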