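import Fermat.Agent.FlatHopf.HeckeFlat
import Fermat.Agent.FlatJ.Main
import Fermat.Agent.Reps.Existence

/-!
# Flat models of the torsion of `J₀(N)` in the coordinates of the Galois model

For `p ∤ N` some Galois model of level `N` has all its `p ^ m`-torsion groups prolonged to finite
flat models over `ℤ_(p)` (`exists_galModel_flat`): its reductions embed equivariantly in `J₀(N)`
(`Reps.exists_galModel_jZero`), and finite subgroups of the Jacobian have such models
(`FlatJ.hasModel_of_injective`).
-/

set_option autoImplicit false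

noncomputable section

open ModularCurve Matrix

namespace FLTAgent.FlatHopf

open FLTAgent.Reps

local notation "Γℚ" => (AlgebraicClosure ℚ ≃ₐ[ℚ] AlgebraicClosure ℚ)

/-- Some Galois model has its mod `p^m` reductions embedded equivariantly in `J₀(N)`
(a restatement of `Reps.exists_galModel_jZero`). -/
theorem exists_galModel_jZero (N : ℕ) [NeZero N] (p : ℕ) [Fact p.Prime] :
    ∃ G : GalModel N p, ∀ m : ℕ, ∃ ι : (Fin G.r → ZMod (p ^ m)) →+ JZero N,
      Function.Injective ι ∧ ∀ (σ : Γℚ) x, ι (G.MMod m σ *ᵥ x) = σ • ι x :=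
  Reps.exists_galModel_jZero N p

/-- For `p ∤ N` the torsion groups of some Galois model have flat models at `p`. -/
theorem exists_galModel_flat (N : ℕ) [NeZero N] (p : ℕ) [Fact p.Prime] (hpN : ¬ p ∣ N) :
    ∃ G : GalModel N p, ∀ m, HasFlatModel p (torsAct G m) := by
  obtain ⟨G, hG⟩ := exists_galModel_jZero N p
  refine ⟨G, fun m => ?_⟩
  obtain ⟨ι, hinj, hι⟩ := hG m
  let : DistribMulAction (AlgebraicClosure ℚ ≃ₐ[ℚ] AlgebraicClosure ℚ)
      (Fin G.r → ZMod (p ^ m)) :=
    DistribMulAction.compHom _ (torsAct G m)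
  exact FlatJ.hasModel_of_injective N p hpN ι (fun σ x => hι σ x) hinj

end FLTAgent.FlatHopf

end
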