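import Mathlib

/-!
# Equivariant functions: linear independence and tensor products of functions

If the elements of `K` fixed by `Γ` are fractions of elements of `R` (`FixedIsFrac`), equivariant
functions independent over `R` are independent over `K` (`linearIndependent_of_equivariant`).
Consequently tensor products of modules of such functions embed into functions of two variables
(`funMul`, `funMul_injective`).
-/

set_option autoImplicit false
set_option linter.unusedSectionVars false

noncomputable section

namespace FLTAgent.FlatHopf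

open TensorProduct

variable {R : Type} [CommRing R] [IsDomain R] {K : Type} [Field K] [Algebra R K]
  [FaithfulSMul R K] {Γ : Type} [Group Γ] (φ : Γ →* (K ≃ₐ[R] K))

/-- The fixed elements of `Γ` are fractions of elements of `R`. -/
def FixedIsFrac : Prop :=
  ∀ x : K, (∀ σ, φ σ x = x) → ∃ a b : R, b ≠ 0 ∧ algebraMap R K b * x = algebraMap R K a

variable {φ}

/-- Functions with `φ`-equivariance for the permutation action `act` are linearly independent over
`K` as soon as they are over `R`. -/
theorem linearIndependent_of_equivariant (hfix : FixedIsFrac φ) {X ι : Type}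
    (act : Γ → X → X) (hsurj : ∀ σ, Function.Surjective (act σ)) (a : ι → X → K)
    (ha : ∀ i σ x, a i (act σ x) = φ σ (a i x)) (hli : LinearIndependent R a) :
    LinearIndependent K a := by
  classical
  rw [linearIndependent_iff']
  intro s
  induction s using Finset.strongInduction with
  | H s ih =>
  intro c hc i hi
  by_contra hne
  set d : ι → K := fun j => (c i)⁻¹ * c j with hd
  have hdsum : ∑ j ∈ s, d j • a j = 0 := by
    simp only [hd, mul_smul, ← Finset.smul_sum, hc, smul_zero]
  have hdi : d i = 1 := inv_mul_cancel₀ hne
  have hfixed : ∀ j ∈ s, ∀ σ, φ σ (d j) = d j := by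
    intro j hj σ
    have hσ : ∑ l ∈ s, φ σ (d l) • a l = 0 := by
      funext y
      obtain ⟨x, rfl⟩ := hsurj σ y
      have h := congrArg (fun f : X → K => φ σ (f x)) hdsum
      simp only [Finset.sum_apply, Pi.smul_apply, smul_eq_mul, map_sum, map_mul, Pi.zero_apply,
        map_zero] at h
      simpa only [Finset.sum_apply, Pi.smul_apply, smul_eq_mul, ha, Pi.zero_apply] using h
    by_cases hji : j = i
    · subst hji; rw [hdi, map_one]
    have h1 := ih (s.erase i) (Finset.erase_ssubset hi) (fun l => φ σ (d l) - d l) ?_ j
      (Finset.mem_erase.2 ⟨hji, hj⟩)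
    · exact sub_eq_zero.1 h1
    · rw [Finset.sum_erase _ (by simp [hdi])]
      simp only [sub_smul, Finset.sum_sub_distrib, hσ, hdsum, sub_zero]
  choose! na da hda0 hda using fun j hj => hfix (d j) (hfixed j hj)
  set D : R := ∏ j ∈ s, da j with hD
  have hD0 : D ≠ 0 := Finset.prod_ne_zero_iff.2 hda0
  set r : ι → R := fun j => na j * ∏ l ∈ s.erase j, da l with hr
  have hrd : ∀ j ∈ s, algebraMap R K (r j) = algebraMap R K D * d j := fun j hj => by
    simp only [hr, hD, map_mul, ← hda j hj, ← Finset.mul_prod_erase s da hj]
    ring
  have hzero : ∑ j ∈ s, r j • a j = 0 := by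
    have h2 : ∑ j ∈ s, r j • a j = algebraMap R K D • ∑ j ∈ s, d j • a j := by
      rw [Finset.smul_sum]
      refine Finset.sum_congr rfl fun j hj => funext fun x => ?_
      simp only [Pi.smul_apply, Algebra.smul_def, hrd j hj, mul_assoc]
      rfl
    rw [h2, hdsum, smul_zero]
  have h3 := congrArg (algebraMap R K) (linearIndependent_iff'.1 hli s r hzero i hi)
  rw [hrd i hi, hdi, mul_one, map_zero] at h3
  exact hD0 (FaithfulSMul.algebraMap_injective R K (h3.trans (map_zero _).symm))

section Tensor

variable {M N X Y : Type} [AddCommGroup M] [Module R M] [AddCommGroup N] [Module R N]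

/-- The product of functions of two variables as a bilinear map. -/
def funMul (f : M →ₗ[R] X → K) (g : N →ₗ[R] Y → K) : M ⊗[R] N →ₗ[R] X × Y → K :=
  TensorProduct.lift (LinearMap.mk₂ R (fun m n (z : X × Y) => f m z.1 * g n z.2)
    (fun a b n => by ext z; simp [add_mul]) (fun r a n => by ext z; simp [Algebra.smul_def, mul_assoc])
    (fun m a b => by ext z; simp [mul_add])
    (fun r m a => by ext z; simp [Algebra.smul_def, mul_left_comm]))

@[simp] theorem funMul_tmul (f : M →ₗ[R] X → K) (g : N →ₗ[R] Y → K) (m : M) (n : N) (z : X × Y) :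
    funMul f g (m ⊗ₜ n) z = f m z.1 * g n z.2 := rfl

theorem linearIndependent_mul {ι κ : Type} {a : ι → X → K} {b : κ → Y → K}
    (ha : LinearIndependent K a) (hb : LinearIndependent K b) :
    LinearIndependent K (fun p : ι × κ => fun z : X × Y => a p.1 z.1 * b p.2 z.2) := by
  classical
  rw [linearIndependent_iff']
  intro s c hc p hp
  set c' : ι × κ → K := fun q => if q ∈ s then c q else 0 with hc'
  set S := s.image Prod.fst with hS
  set T := s.image Prod.snd with hT
  have hsub : s ⊆ S ×ˢ T := fun q hq =>
    Finset.mem_product.2 ⟨Finset.mem_image_of_mem _ hq, Finset.mem_image_of_mem _ hq⟩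
  have hsum : ∑ q ∈ S ×ˢ T, c' q • (fun z : X × Y => a q.1 z.1 * b q.2 z.2) = 0 := by
    refine Eq.trans ?_ hc
    rw [← Finset.sum_subset hsub fun q _ hq => by simp [c', hq]]
    exact Finset.sum_congr rfl fun q hq => by simp [c', hq]
  have hinner : ∀ y, ∀ i ∈ S, ∑ j ∈ T, c' (i, j) * b j y = 0 := by
    intro y
    refine linearIndependent_iff'.1 ha S _ (funext fun x => ?_)
    have h := congrFun hsum (x, y)
    simp only [Finset.sum_apply, Pi.smul_apply, smul_eq_mul, Pi.zero_apply, Finset.sum_product] at h
    simp only [Finset.sum_apply, Pi.smul_apply, smul_eq_mul, Pi.zero_apply, Finset.sum_mul]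
    refine Eq.trans ?_ h
    exact Finset.sum_congr rfl fun i _ => Finset.sum_congr rfl fun j _ => by ring
  have h := linearIndependent_iff'.1 hb T (fun j => c' (p.1, j))
    (funext fun y => by
      simpa [Finset.sum_apply] using hinner y p.1 (Finset.mem_image_of_mem _ hp))
    p.2 (Finset.mem_image_of_mem _ hp)
  simpa [c', hp] using h

/-- If bases of `M` and `N` map to `K`-independent functions, so does the tensor basis. -/
theorem funMul_injective {ι κ : Type} (f : M →ₗ[R] X → K) (g : N →ₗ[R] Y → K)
    (bM : Module.Basis ι R M) (bN : Module.Basis κ R N)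
    (hf : LinearIndependent K (f ∘ bM)) (hg : LinearIndependent K (g ∘ bN)) :
    LinearIndependent K (funMul f g ∘ bM.tensorProduct bN) ∧ Function.Injective (funMul f g) := by
  have h : LinearIndependent K (funMul f g ∘ bM.tensorProduct bN) := by
    convert linearIndependent_mul hf hg using 1
    funext q z
    obtain ⟨i, j⟩ := q
    rw [Function.comp_apply, Module.Basis.tensorProduct_apply, funMul_tmul]
    rfl
  refine ⟨h, ?_⟩
  have hR : LinearIndependent R (funMul f g ∘ bM.tensorProduct bN) :=
    h.restrict_scalars fun r s hrs => FaithfulSMul.algebraMap_injective R K (by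
      simpa [Algebra.smul_def] using hrs)
  refine LinearMap.ker_eq_bot.1 (LinearMap.ker_eq_bot'.2 fun x hx => ?_)
  have hx' : x = ((bM.tensorProduct bN).repr x).sum fun p r => r • bM.tensorProduct bN p :=
    ((bM.tensorProduct bN).linearCombination_repr x).symm
  have h0 : Finsupp.linearCombination R (funMul f g ∘ bM.tensorProduct bN)
      ((bM.tensorProduct bN).repr x) = 0 := by
    rw [Finsupp.linearCombination_apply]
    rw [hx', map_finsuppSum] at hx
    simpa only [map_smul, Function.comp_apply] using hx
  have := linearIndependent_iff.1 hR _ h0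
  exact (bM.tensorProduct bN).repr.map_eq_zero_iff.1 this

end Tensor

end FLTAgent.FlatHopf

end
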