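import Fermat.Agent.FlatHopf.Order

/-!
# Closure properties of groups with finite flat models

An order separates the points and spans all functions (`IsOrder.separates`,
`span_eq_top_of_separates`).  Groups with an order are closed under stable subgroups
(`HasOrder.of_injective`: restrict the functions) and quotients (`HasOrder.of_surjective`: take the
invariant functions of the order).
-/

set_option autoImplicit false
set_option linter.unusedSectionVars false

noncomputable section

namespace FLTAgent.FlatHopf

open TensorProduct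

variable {R : Type} [CommRing R] [IsDomain R] [IsPrincipalIdealRing R] {K : Type} [Field K]
  [Algebra R K] [FaithfulSMul R K] {Γ : Type} [Group Γ] {φ : Γ →* (K ≃ₐ[R] K)}
  {G G' : Type} [AddCommGroup G] [Finite G] [AddCommGroup G'] [Finite G']
  {act : Γ →* AddMonoid.End G} {act' : Γ →* AddMonoid.End G'}

theorem span_eq_top_of_forall_sum {X : Type} [Fintype X] (S : Set (X → K))
    (h : ∀ c : X → K, (∀ a ∈ S, ∑ x, c x * a x = 0) → c = 0) : Submodule.span K S = ⊤ := by
  classical
  by_contra hne
  obtain ⟨ℓ, hℓ, hle⟩ := Submodule.exists_le_ker_of_lt_top _ (lt_top_iff_ne_top.2 hne)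
  refine hℓ (LinearMap.ext fun f => ?_)
  have key : ∀ f : X → K, ℓ f = ∑ x, ℓ (Pi.single x 1) * f x := fun f => by
    conv_lhs => rw [← Finset.univ_sum_single f]
    rw [map_sum]
    refine Finset.sum_congr rfl fun x _ => ?_
    rw [show Pi.single (M := fun _ : X => K) x (f x) = f x • Pi.single x 1 by
      rw [← Pi.single_smul, smul_eq_mul, mul_one], map_smul, smul_eq_mul, mul_comm]
  have h0 := h (fun x => ℓ (Pi.single x 1)) fun a ha => by
    rw [← key]; exact hle (Submodule.subset_span ha)
  rw [key, LinearMap.zero_apply]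
  exact Finset.sum_eq_zero fun x _ => by rw [congrFun h0 x]; exact zero_mul _

/-- A subalgebra separating the points spans all functions. -/
theorem span_eq_top_of_separates {X : Type} [Finite X] (H : Subalgebra R (X → K))
    (h : ∀ x y, (∀ a ∈ H, a x = a y) → x = y) : Submodule.span K (H : Set (X → K)) = ⊤ := by
  have := Fintype.ofFinite X
  let F : X → (↥H →* K) := fun x =>
    ((Pi.evalAlgHom R (fun _ : X => K) x).comp H.val).toRingHom.toMonoidHom
  have hli := (linearIndependent_monoidHom ↥H K).comp F fun x y he =>
    h x y fun a ha => DFunLike.congr_fun he ⟨a, ha⟩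
  rw [Fintype.linearIndependent_iff] at hli
  refine span_eq_top_of_forall_sum _ fun c hc => funext fun x => hli c (funext fun a => ?_) x
  simp only [Function.comp_apply, Finset.sum_apply, Pi.smul_apply, smul_eq_mul, Pi.zero_apply]
  exact hc a.1 a.2

theorem IsOrder.separates {H : Subalgebra R (G → K)} (h : IsOrder φ act H) {x y : G}
    (hxy : ∀ a ∈ H, a x = a y) : x = y := by
  classical
  by_contra hne
  have h1 : Pi.single (M := fun _ : G => K) x 1 ∈ Submodule.span K (H : Set (G → K)) :=
    h.span_eq_top.ge Submodule.mem_top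
  have h2 : ∀ f ∈ Submodule.span K (H : Set (G → K)), f x = f y := fun f hf => by
    induction hf using Submodule.span_induction with
    | mem f hf => exact hxy f hf
    | zero => rfl
    | add _ _ _ _ h1 h2 => simp only [Pi.add_apply, h1, h2]
    | smul c _ _ h1 => simp only [Pi.smul_apply, h1]
  have h3 := h2 _ h1
  rw [Pi.single_eq_same, Pi.single_eq_of_ne (Ne.symm hne)] at h3
  exact one_ne_zero h3

theorem exists_basis_of_fg (hfix : FixedIsFrac φ) {X : Type} (S : Submodule R (X → K))
    (hfg : S.FG) (f : Γ → X → X) (hf : ∀ σ, Function.Surjective (f σ))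
    (heq : ∀ a ∈ S, ∀ σ x, a (f σ x) = φ σ (a x)) :
    ∃ (ι : Type) (_ : Fintype ι) (b : Module.Basis ι R ↥S),
      LinearIndependent K fun i => (b i : X → K) := by
  have : Module.Finite R ↥S := Module.Finite.iff_fg.2 hfg
  have : Module.IsTorsionFree R ↥S := Module.IsTorsionFree.of_smul_eq_zero fun r m h => by
    by_cases hr : r = 0
    · exact .inl hr
    · refine .inr (Subtype.ext (funext fun x => ?_))
      have := congrFun (congrArg Subtype.val h) x
      simpa [Algebra.smul_def, hr] using this
  let b := Module.Free.chooseBasis R ↥S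
  have := Module.Free.ChooseBasisIndex.fintype R ↥S
  exact ⟨_, inferInstance, b, linearIndependent_of_equivariant hfix f hf _
    (fun i σ x => heq _ (b i).2 σ x)
    (b.linearIndependent.map' S.subtype (Submodule.ker_subtype S))⟩

theorem exists_eq_sum_mul_basis {X : Type} {S : Submodule R (X → K)} {ι : Type} [Fintype ι]
    {Y : Type} {S' : Submodule R (Y → K)} (b : Module.Basis ι R ↥S') {f : X × Y → K}
    (hf : f ∈ prodSpan S S') :
    ∃ A : ι → X → K, (∀ i, A i ∈ S) ∧ ∀ x y, f (x, y) = ∑ i, A i x * (b i : Y → K) y := by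
  induction hf using Submodule.span_induction with
  | mem f hf =>
    obtain ⟨a, ha, c, hc, rfl⟩ := hf
    refine ⟨fun i => b.repr ⟨c, hc⟩ i • a, fun i => S.smul_mem _ ha, fun x y => ?_⟩
    have h1 : c y = ∑ i, algebraMap R K (b.repr ⟨c, hc⟩ i) * (b i : Y → K) y := by
      have := congrArg (fun v : ↥S' => (v : Y → K) y) (b.sum_repr ⟨c, hc⟩)
      simp only [Submodule.coe_sum, Submodule.coe_smul, Finset.sum_apply, Pi.smul_apply] at this
      rw [← this]
      exact Finset.sum_congr rfl fun i _ => Algebra.smul_def _ _
    show a x * c y = _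
    rw [h1, Finset.mul_sum]
    refine Finset.sum_congr rfl fun i _ => ?_
    show _ = (b.repr ⟨c, hc⟩ i • a x) * _
    rw [Algebra.smul_def]
    ring
  | zero => exact ⟨fun _ => 0, fun _ => zero_mem _, fun x y => by simp⟩
  | add f g _ _ hf hg =>
    obtain ⟨A, hA, hA'⟩ := hf
    obtain ⟨B, hB, hB'⟩ := hg
    exact ⟨fun i => A i + B i, fun i => add_mem (hA i) (hB i), fun x y => by
      simp [hA', hB', add_mul, Finset.sum_add_distrib]⟩
  | smul r f _ hf =>
    obtain ⟨A, hA, hA'⟩ := hf
    exact ⟨fun i => r • A i, fun i => S.smul_mem r (hA i), fun x y => by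
      simp [hA', Algebra.smul_def, mul_assoc, Finset.mul_sum]⟩

/-- Finite flat models descend to stable subgroups. -/
theorem HasOrder.of_injective (h : HasOrder φ act) (i : G' →+ G) (hi : Function.Injective i)
    (heq : ∀ σ x, i (act' σ x) = act σ (i x)) : HasOrder φ act' := by
  obtain ⟨H, hH⟩ := h
  let res : (G → K) →ₐ[R] (G' → K) := AlgHom.pi fun x => Pi.evalAlgHom R _ (i x)
  refine ⟨H.map res, ?_, ?_, ?_, ?_⟩
  · rw [Subalgebra.map_toSubmodule]; exact hH.fg.map _
  · rintro _ ⟨a, ha, rfl⟩ σ x
    show a (i (act' σ x)) = φ σ (a (i x))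
    rw [heq, hH.equivariant a ha]
  · exact span_eq_top_of_separates _ fun x y hxy => hi (hH.separates fun a ha =>
      hxy _ ⟨a, ha, rfl⟩)
  · rintro _ ⟨a, ha, rfl⟩
    obtain ⟨t, ht⟩ := (mem_prodSpan_iff _ _ _).1 (hH.comul a ha)
    have e : (fun z : G' × G' => res a (z.1 + z.2)) =
        fun z => funMul (Subalgebra.toSubmodule H).subtype (Subalgebra.toSubmodule H).subtype t
          (i z.1, i z.2) := by
      funext z
      rw [ht]
      show a (i (z.1 + z.2)) = a (i z.1 + i z.2)
      rw [map_add]
    show (fun z : G' × G' => res a (z.1 + z.2)) ∈ _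
    rw [e]
    clear e ht
    induction t using TensorProduct.induction_on with
    | zero =>
      simp only [map_zero, Pi.zero_apply]
      exact zero_mem _
    | tmul p q =>
      exact Submodule.subset_span ⟨res p.1, ⟨p.1, p.2, rfl⟩, res q.1, ⟨q.1, q.2, rfl⟩, rfl⟩
    | add p q hp hq =>
      simp only [map_add, Pi.add_apply]
      exact add_mem hp hq

theorem exists_smul_mem_of_equivariant (hfix : FixedIsFrac φ) {H : Subalgebra R (G → K)}
    (hH : IsOrder φ act H) (v : G → K) (hv : ∀ σ x, v (act σ x) = φ σ (v x)) :
    ∃ r : R, r ≠ 0 ∧ r • v ∈ H := by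
  classical
  obtain ⟨ι, _, b, hb, hbs⟩ := hH.exists_basis hfix
  let bK : Module.Basis ι K (G → K) := Module.Basis.mk hb hbs.ge
  have hbK : ∀ i, bK i = (b i : G → K) := fun i => Module.Basis.mk_apply _ _ i
  set c : ι → K := fun i => bK.repr v i with hc
  have hsum : ∀ x, v x = ∑ i, c i * (b i : G → K) x := fun x => by
    conv_lhs => rw [← bK.sum_repr v]
    simp [hbK, hc]
  have hfixed : ∀ i σ, φ σ (c i) = c i := by
    intro i σ
    have h0 : ∑ j, (φ σ (c j) - c j) • bK j = 0 := by
      funext y
      obtain ⟨x, rfl⟩ := act_surjective (act := act) σ y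
      have h1 := congrArg (φ σ) (hsum x)
      rw [← hv, map_sum, hsum (act σ x)] at h1
      simp only [Finset.sum_apply, Pi.smul_apply, smul_eq_mul, hbK, sub_mul, Pi.zero_apply,
        Finset.sum_sub_distrib, sub_eq_zero]
      rw [h1]
      refine Finset.sum_congr rfl fun j _ => ?_
      rw [map_mul, hH.equivariant _ (b j).2]
    exact sub_eq_zero.1 (Fintype.linearIndependent_iff.1 bK.linearIndependent _ h0 i)
  choose a d hd0 had using fun i => hfix (c i) (hfixed i)
  refine ⟨∏ i, d i, Finset.prod_ne_zero_iff.2 fun i _ => hd0 i, ?_⟩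
  have e : (∏ i, d i) • v = ∑ i, (a i * ∏ j ∈ Finset.univ.erase i, d j) • (b i : G → K) := by
    funext x
    simp only [Pi.smul_apply, Finset.sum_apply]
    rw [Algebra.smul_def, hsum, Finset.mul_sum]
    refine Finset.sum_congr rfl fun i _ => ?_
    rw [Algebra.smul_def, map_mul, ← had i, ← Finset.mul_prod_erase Finset.univ d (Finset.mem_univ i),
      map_mul]
    ring
  rw [e]
  exact sum_mem fun i _ => H.smul_mem (b i).2 _

/-- Finite flat models pass to quotients. -/
theorem HasOrder.of_surjective (hfix : FixedIsFrac φ) (h : HasOrder φ act) (π : G →+ G')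
    (hπ : Function.Surjective π) (heq : ∀ σ x, π (act σ x) = act' σ (π x)) :
    HasOrder φ act' := by
  classical
  obtain ⟨H, hH⟩ := h
  have := Fintype.ofFinite G
  let pull : (G' → K) →ₐ[R] (G → K) := AlgHom.pi fun x => Pi.evalAlgHom R _ (π x)
  have hpull : Function.Injective pull := fun a b hab => funext fun y => by
    obtain ⟨x, rfl⟩ := hπ y; exact congrFun hab x
  set H' : Subalgebra R (G' → K) := H.comap pull with hH'
  have hfg : (Subalgebra.toSubmodule H').FG := by
    have := hH.finite
    let j : ↥(Subalgebra.toSubmodule H') →ₗ[R] ↥H :=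
      { toFun := fun a => ⟨pull a.1, a.2⟩
        map_add' := fun a b => Subtype.ext (map_add pull a.1 b.1)
        map_smul' := fun r a => Subtype.ext (map_smul pull r a.1) }
    exact Module.Finite.iff_fg.1 (Module.Finite.of_injective j fun a b hab =>
      Subtype.ext (hpull (congrArg Subtype.val hab)))
  have heqv : ∀ a ∈ H', ∀ σ y, a (act' σ y) = φ σ (a y) := by
    intro a ha σ y
    obtain ⟨x, rfl⟩ := hπ y
    rw [← heq]
    exact hH.equivariant _ ha σ x
  refine ⟨H', hfg, heqv, span_eq_top_of_separates _ fun y y' hyy' => ?_, fun a ha => ?_⟩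
  · by_contra hne
    let Φ : (G → K) →ₗ[K] (G' → K) :=
      { toFun := fun f z => ∑ x ∈ Finset.univ.filter (fun x => π x = z), f x
        map_add' := fun f g => funext fun z => Finset.sum_add_distrib
        map_smul' := fun c f => funext fun z => by
          simp [Finset.mul_sum] }
    have hΦ : ∀ f ∈ H, (∀ σ z, Φ f (act' σ z) = φ σ (Φ f z)) := by
      intro f hf σ z
      show ∑ x ∈ _, f x = φ σ (∑ x ∈ _, f x)
      rw [map_sum]
      refine (Finset.sum_bij (fun x _ => act σ x) ?_ ?_ ?_ ?_).symm
      · intro x hx
        simp only [Finset.mem_filter, Finset.mem_univ, true_and] at hx ⊢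
        rw [heq, hx]
      · intro x _ x' _ hxx'
        exact ((Finite.injective_iff_surjective).2 (act_surjective (act := act) σ)) hxx'
      · intro x hx
        obtain ⟨x', rfl⟩ := act_surjective (act := act) σ x
        simp only [Finset.mem_filter, Finset.mem_univ, true_and, heq] at hx ⊢
        refine ⟨x', ?_, rfl⟩
        exact ((Finite.injective_iff_surjective).2 (act_surjective (act := act') σ)) hx
      · intro x _
        exact (hH.equivariant f hf σ x).symm
    have hall : ∀ f, Φ f y = Φ f y' := by
      intro f
      have hf : f ∈ Submodule.span K (H : Set (G → K)) := hH.span_eq_top.ge Submodule.mem_top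
      induction hf using Submodule.span_induction with
      | mem f hf =>
        obtain ⟨r, hr, hrmem⟩ := exists_smul_mem_of_equivariant hfix hH (pull (Φ f))
          (fun σ x => by
            show Φ f (π (act σ x)) = φ σ (Φ f (π x))
            rw [heq, hΦ f hf])
        have h1 := hyy' (r • Φ f) (by
          show pull (r • Φ f) ∈ H
          rw [map_smul]; exact hrmem)
        simp only [Pi.smul_apply, Algebra.smul_def] at h1
        exact mul_left_cancel₀
          (fun e => hr (FaithfulSMul.algebraMap_injective R K (e.trans (map_zero _).symm))) h1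
      | zero => simp
      | add u v _ _ hu hv => simp [hu, hv]
      | smul c u _ hu => simp [hu]
    obtain ⟨x, rfl⟩ := hπ y
    have h1 := hall (Pi.single x 1)
    have h2 : Φ (Pi.single x 1) (π x) = 1 := by
      show ∑ u ∈ _, _ = _
      simp [Finset.sum_pi_single']
    have h3 : Φ (Pi.single x 1) y' = 0 := by
      show ∑ u ∈ _, _ = _
      simp [Finset.sum_pi_single', hne]
    rw [h2, h3] at h1
    exact one_ne_zero h1
  · have := hH.finite
    obtain ⟨ι, _, b, hb⟩ := exists_basis_of_fg hfix (Subalgebra.toSubmodule H) hH.fg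
      (fun σ => act σ) act_surjective hH.equivariant
    obtain ⟨κ, _, d, hd⟩ := exists_basis_of_fg hfix (Subalgebra.toSubmodule H') hfg
      (fun σ => act' σ) act_surjective heqv
    have hmem : (fun z : G × G => a (π z.1 + π z.2)) ∈
        prodSpan (Subalgebra.toSubmodule H) (Subalgebra.toSubmodule H) := by
      convert hH.comul _ ha using 1
      funext z
      show a (π z.1 + π z.2) = a (π (z.1 + z.2))
      rw [map_add]
    obtain ⟨A, hA, hA'⟩ := exists_eq_sum_mul_basis b hmem
    -- the coefficients factor through `π`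
    have hAπ : ∀ i x x', π x = π x' → A i x = A i x' := by
      intro i x x' hxx'
      have h0 : ∑ j, (A j x - A j x') • (b j : G → K) = 0 := by
        funext y
        have h1 := (hA' x y).symm.trans ((congrArg (fun u => a (u + π y)) hxx').trans (hA' x' y))
        simp only [Finset.sum_apply, Pi.smul_apply, smul_eq_mul, Pi.zero_apply, sub_mul,
          Finset.sum_sub_distrib, sub_eq_zero]
        exact h1
      exact sub_eq_zero.1 (Fintype.linearIndependent_iff.1 hb _ h0 i)
    choose s hs using hπ
    have hA'' : ∀ i, (fun y => A i (s y)) ∈ H' := fun i => by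
      show pull (fun y => A i (s y)) ∈ H
      have : pull (fun y => A i (s y)) = A i := funext fun x => hAπ i _ _ (hs (π x))
      rw [this]; exact hA i
    set r : ι → κ → R := fun i l => d.repr ⟨fun y => A i (s y), hA'' i⟩ l with hr
    have hAd : ∀ i y, A i (s y) = ∑ l, algebraMap R K (r i l) * (d l : G' → K) y := fun i y => by
      have h1 := congrArg (fun v : ↥(Subalgebra.toSubmodule H') => (v : G' → K) y)
        (d.sum_repr ⟨fun y => A i (s y), hA'' i⟩)
      simp only [Submodule.coe_sum, Submodule.coe_smul, Finset.sum_apply, Pi.smul_apply] at h1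
      exact h1.symm.trans (Finset.sum_congr rfl fun l _ => Algebra.smul_def _ _)
    set D : κ → G → K := fun l x => ∑ i, algebraMap R K (r i l) * (b i : G → K) x with hD
    have hDmem : ∀ l, D l ∈ H := fun l => by
      have : D l = ∑ i, r i l • (b i : G → K) := funext fun x => by
        simp [hD, Finset.sum_apply, Algebra.smul_def]
      rw [this]
      exact sum_mem fun i _ => H.smul_mem (b i).2 _
    have hf : ∀ y x, a (y + π x) = ∑ l, (d l : G' → K) y * D l x := fun y x => by
      have h1 := hA' (s y) x
      simp only [hs] at h1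
      rw [h1]
      simp only [hAd, hD, Finset.sum_mul, Finset.mul_sum]
      rw [Finset.sum_comm]
      exact Finset.sum_congr rfl fun l _ => Finset.sum_congr rfl fun i _ => by ring
    have hDπ : ∀ l x x', π x = π x' → D l x = D l x' := by
      intro l x x' hxx'
      have h0 : ∑ j, (D j x - D j x') • (d j : G' → K) = 0 := by
        funext y
        have h1 := (hf y x).symm.trans ((congrArg (fun u => a (y + u)) hxx').trans (hf y x'))
        simp only [Finset.sum_apply, Pi.smul_apply, smul_eq_mul, Pi.zero_apply, sub_mul,
          Finset.sum_sub_distrib, sub_eq_zero]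
        simpa only [mul_comm] using h1
      exact sub_eq_zero.1 (Fintype.linearIndependent_iff.1 hd _ h0 l)
    have e : (fun z : G' × G' => a (z.1 + z.2)) =
        ∑ l, fun z : G' × G' => (d l : G' → K) z.1 * D l (s z.2) := by
      funext z
      rw [Finset.sum_apply, ← hf, hs]
    rw [e]
    refine Submodule.sum_mem _ fun l _ => Submodule.subset_span
      ⟨_, (d l).2, fun y => D l (s y), ?_, rfl⟩
    show pull (fun y => D l (s y)) ∈ H
    have : pull (fun y => D l (s y)) = D l := funext fun x => hDπ l _ _ (hs (π x))
    rw [this]; exact hDmem l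

end FLTAgent.FlatHopf

end
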