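import Fermat.Agent.FlatHopf.Lin

/-!
# Orders in algebras of equivariant functions and the Hopf algebras they define

A finite flat commutative group scheme with étale generic fibre is the same as an order in the
algebra of equivariant functions on its points, closed under comultiplication (`IsOrder`,
`HasOrder`).  This file builds the comultiplication, counit and antipode of an order and proves
that it is a Hopf algebra with the given group of points (`IsOrder.hasModel`).
-/

set_option autoImplicit false
set_option linter.unusedSectionVars false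

noncomputable section

namespace FLTAgent.FlatHopf

open TensorProduct

variable {R : Type} [CommRing R] [IsDomain R] [IsPrincipalIdealRing R] {K : Type} [Field K]
  [Algebra R K] [FaithfulSMul R K] {Γ : Type} [Group Γ] (φ : Γ →* (K ≃ₐ[R] K))
  {G : Type} [AddCommGroup G] [Finite G] (act : Γ →* AddMonoid.End G)

/-- The functions `(x, y) ↦ a x * b y`. -/
def prodSpan {X Y : Type} (H : Submodule R (X → K)) (H' : Submodule R (Y → K)) :
    Submodule R (X × Y → K) :=
  Submodule.span R {f | ∃ a ∈ H, ∃ b ∈ H', (fun z : X × Y => a z.1 * b z.2) = f}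

/-- An order in the equivariant functions on `G`, stable under comultiplication. -/
structure IsOrder (H : Subalgebra R (G → K)) : Prop where
  fg : (Subalgebra.toSubmodule H).FG
  equivariant : ∀ a ∈ H, ∀ σ g, a (act σ g) = φ σ (a g)
  span_eq_top : Submodule.span K (H : Set (G → K)) = ⊤
  comul : ∀ a ∈ H, (fun z : G × G => a (z.1 + z.2)) ∈
    prodSpan (Subalgebra.toSubmodule H) (Subalgebra.toSubmodule H)

/-- `G` with its action is the group of points of some order. -/
def HasOrder : Prop := ∃ H : Subalgebra R (G → K), IsOrder φ act H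

/-- `G` with its action is the group of points of a finite flat cocommutative Hopf algebra. -/
def HasModel : Prop :=
  ∃ (H : Type) (_ : CommRing H) (_ : HopfAlgebra R H),
    Module.Finite R H ∧ Module.Flat R H ∧ Coalgebra.IsCocomm R H ∧
    ∃ e : WithConv (H →ₐ[R] K) ≃ G,
      (∀ f g, e (f * g) = e f + e g) ∧
      ∀ (σ : Γ) (f g : WithConv (H →ₐ[R] K)),
        (∀ h : H, g h = φ σ (f h)) → e g = act σ (e f)

variable {φ act}

theorem act_surjective (σ : Γ) : Function.Surjective (act σ) := fun x => ⟨act σ⁻¹ x, by
  have h : (act σ * act σ⁻¹) x = x := by rw [← map_mul, mul_inv_cancel, map_one]; rfl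
  exact h⟩

theorem mem_prodSpan_iff {X Y : Type} (H : Submodule R (X → K)) (H' : Submodule R (Y → K))
    (f : X × Y → K) : f ∈ prodSpan H H' ↔ f ∈ LinearMap.range (funMul H.subtype H'.subtype) := by
  constructor
  · intro hf
    induction hf using Submodule.span_induction with
    | mem f hf =>
      obtain ⟨a, ha, b, hb, rfl⟩ := hf
      exact ⟨⟨a, ha⟩ ⊗ₜ ⟨b, hb⟩, rfl⟩
    | zero => exact zero_mem _
    | add _ _ _ _ h h' => exact add_mem h h'
    | smul r _ _ h => exact Submodule.smul_mem _ r h
  · rintro ⟨t, rfl⟩
    induction t using TensorProduct.induction_on with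
    | zero => rw [map_zero]; exact zero_mem _
    | tmul a b => exact Submodule.subset_span ⟨a.1, a.2, b.1, b.2, rfl⟩
    | add _ _ h h' => rw [map_add]; exact add_mem h h'

/-- The inclusion of a subalgebra of functions, as a linear map. -/
def incl (H : Subalgebra R (G → K)) : ↥H →ₗ[R] G → K := H.val.toLinearMap

/-- The tensor square of `H` as functions of two variables. -/
def mulAlg (H : Subalgebra R (G → K)) : ↥H ⊗[R] ↥H →ₐ[R] G × G → K :=
  Algebra.TensorProduct.lift
    (AlgHom.ofLinearMap { toFun := fun a z => (a : G → K) z.1, map_add' := fun _ _ => rfl,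
                          map_smul' := fun _ _ => rfl } rfl fun _ _ => rfl)
    (AlgHom.ofLinearMap { toFun := fun a z => (a : G → K) z.2, map_add' := fun _ _ => rfl,
                          map_smul' := fun _ _ => rfl } rfl fun _ _ => rfl)
    fun _ _ => Commute.all _ _

theorem mulAlg_tmul (H : Subalgebra R (G → K)) (a b : ↥H) (z : G × G) :
    mulAlg H (a ⊗ₜ b) z = (a : G → K) z.1 * (b : G → K) z.2 := rfl

theorem mulAlg_eq (H : Subalgebra R (G → K)) :
    (mulAlg H).toLinearMap = funMul (incl H) (incl H) :=
  TensorProduct.ext' fun a b => by funext z; rfl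

namespace IsOrder

variable {H : Subalgebra R (G → K)}

theorem finite (h : IsOrder φ act H) : Module.Finite R ↥H :=
  Module.Finite.iff_fg.2 h.fg

theorem isTorsionFree : Module.IsTorsionFree R ↥H :=
  Module.IsTorsionFree.of_smul_eq_zero fun r m h => by
    by_cases hr : r = 0
    · exact .inl hr
    · refine .inr (Subtype.ext (funext fun x => ?_))
      have := congrFun (congrArg Subtype.val h) x
      simpa [Algebra.smul_def, hr] using this

theorem exists_basis (hfix : FixedIsFrac φ) (h : IsOrder φ act H) :
    ∃ (ι : Type) (_ : Fintype ι) (b : Module.Basis ι R ↥H),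
      LinearIndependent K (incl H ∘ b) ∧ Submodule.span K (Set.range (incl H ∘ b)) = ⊤ := by
  have := h.finite
  have := IsOrder.isTorsionFree (H := H)
  let b := Module.Free.chooseBasis R ↥H
  have := Module.Free.ChooseBasisIndex.fintype R ↥H
  refine ⟨_, inferInstance, b, linearIndependent_of_equivariant hfix (fun σ => act σ)
    act_surjective _ (fun i σ x => h.equivariant _ (b i).2 σ x) ?_, ?_⟩
  · exact b.linearIndependent.map' (incl H) (LinearMap.ker_eq_bot.2 Subtype.val_injective)
  · refine eq_top_iff.2 ?_
    rw [← h.span_eq_top, Submodule.span_le]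
    intro a ha
    have h1 : (⟨a, ha⟩ : ↥H) ∈ Submodule.span R (Set.range b) := by
      rw [b.span_eq]; exact Submodule.mem_top
    have h2 := Submodule.mem_map_of_mem (f := incl H) h1
    rw [Submodule.map_span, ← Set.range_comp] at h2
    exact Submodule.span_le_restrictScalars R K _ h2

theorem mulAlg_injective (hfix : FixedIsFrac φ) (h : IsOrder φ act H) :
    Function.Injective (mulAlg H) := by
  obtain ⟨ι, _, b, hb, -⟩ := h.exists_basis hfix
  have := (funMul_injective (incl H) (incl H) b b hb hb).2
  rw [← mulAlg_eq] at this
  exact this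

theorem exists_repr_add (h : IsOrder φ act H) (a : ↥H) :
    ∃ t : ↥H ⊗[R] ↥H, ∀ x y, mulAlg H t (x, y) = (a : G → K) (x + y) := by
  obtain ⟨t, ht⟩ := (mem_prodSpan_iff _ _ _).1 (h.comul a.1 a.2)
  refine ⟨t, fun x y => ?_⟩
  have e : mulAlg H t = funMul (incl H) (incl H) t := LinearMap.congr_fun (mulAlg_eq H) t
  rw [e]
  exact congrFun ht (x, y)

/-- The value at `0` of an element of an order lies in `R`. -/
theorem exists_eq_apply_zero (hfix : FixedIsFrac φ) (h : IsOrder φ act H) (a : ↥H) :
    ∃ r : R, algebraMap R K r = (a : G → K) 0 := by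
  have := h.finite
  set x : K := (a : G → K) 0 with hx
  have hint : IsIntegral R x :=
    (IsIntegral.of_finite R a).map ((Pi.evalAlgHom R (fun _ : G => K) 0).comp H.val)
  have hfixed : ∀ σ, φ σ x = x := fun σ => by
    rw [hx, ← h.equivariant _ a.2 σ 0, map_zero]
  obtain ⟨u, v, hv, huv⟩ := hfix x hfixed
  let ι : FractionRing R →ₐ[R] K :=
    IsFractionRing.liftAlgHom (g := Algebra.ofId R K) (FaithfulSMul.algebraMap_injective R K)
  set y : FractionRing R := algebraMap R _ u / algebraMap R _ v with hy
  have hv' : algebraMap R K v ≠ 0 := fun e =>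
    hv (FaithfulSMul.algebraMap_injective R K (e.trans (map_zero _).symm))
  have hιy : ι y = x := by
    rw [hy, map_div₀, AlgHom.commutes, AlgHom.commutes, div_eq_iff hv', ← huv, mul_comm]
  have hyint : IsIntegral R y :=
    (isIntegral_algHom_iff ι ι.toRingHom.injective).1 (hιy.symm ▸ hint)
  obtain ⟨r, hr⟩ := IsIntegrallyClosed.isIntegral_iff.1 hyint
  exact ⟨r, by rw [← hιy, ← hr, AlgHom.commutes]⟩

theorem comp_nsmul_mem (hfix : FixedIsFrac φ) (h : IsOrder φ act H) (a : ↥H) (n : ℕ) :
    (fun x => (a : G → K) (n • x)) ∈ H := by
  induction n generalizing a with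
  | zero =>
    obtain ⟨r, hr⟩ := h.exists_eq_apply_zero hfix a
    have : (fun x : G => (a : G → K) (0 • x)) = algebraMap R (G → K) r := by
      funext x; rw [zero_nsmul, Pi.algebraMap_apply, hr]
    rw [this]
    exact H.algebraMap_mem r
  | succ n ih =>
    obtain ⟨t, ht⟩ := h.exists_repr_add a
    have : (fun x => (a : G → K) ((n + 1) • x)) = fun x => mulAlg H t (n • x, x) := by
      funext x; rw [ht, succ_nsmul]
    rw [this]
    clear ht this
    induction t using TensorProduct.induction_on with
    | zero =>
      simp only [map_zero, Pi.zero_apply]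
      exact zero_mem H
    | tmul b c => exact mul_mem (ih b) c.2
    | add u v hu hv =>
      simp only [map_add, Pi.add_apply]
      exact add_mem hu hv

theorem comp_neg_mem (hfix : FixedIsFrac φ) (h : IsOrder φ act H) (a : ↥H) :
    (fun x => (a : G → K) (-x)) ∈ H := by
  have hpos : 0 < Nat.card G := Nat.card_pos
  have hneg : ∀ x : G, (Nat.card G - 1) • x = -x := fun x => by
    refine eq_neg_of_add_eq_zero_left ?_
    rw [← succ_nsmul, Nat.sub_add_cancel hpos, card_nsmul_eq_zero']
  simpa [hneg] using h.comp_nsmul_mem hfix a (Nat.card G - 1)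

section Hopf

variable (hfix : FixedIsFrac φ) (h : IsOrder φ act H)

/-- The comultiplication of an order. -/
def comulHom : ↥H →ₐ[R] ↥H ⊗[R] ↥H :=
  AlgHom.ofLinearMap
    { toFun := fun a => (h.exists_repr_add a).choose
      map_add' := fun a b => h.mulAlg_injective hfix (funext fun z => by
        simp only [map_add, Pi.add_apply]
        rw [(h.exists_repr_add a).choose_spec z.1 z.2, (h.exists_repr_add b).choose_spec z.1 z.2,
          (h.exists_repr_add (a + b)).choose_spec z.1 z.2]
        rfl)
      map_smul' := fun r a => h.mulAlg_injective hfix (funext fun z => by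
        simp only [map_smul, Pi.smul_apply, RingHom.id_apply]
        rw [(h.exists_repr_add a).choose_spec z.1 z.2,
          (h.exists_repr_add (r • a)).choose_spec z.1 z.2]
        rfl) }
    (h.mulAlg_injective hfix (funext fun z => by
      rw [map_one (mulAlg H)]
      exact (h.exists_repr_add 1).choose_spec z.1 z.2))
    fun a b => h.mulAlg_injective hfix (funext fun z => by
      rw [map_mul (mulAlg H), Pi.mul_apply]
      exact ((h.exists_repr_add (a * b)).choose_spec z.1 z.2).trans (congrArg₂ (· * ·)
        ((h.exists_repr_add a).choose_spec z.1 z.2).symm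
        ((h.exists_repr_add b).choose_spec z.1 z.2).symm))

theorem mulAlg_comulHom (a : ↥H) (x y : G) :
    mulAlg H (h.comulHom hfix a) (x, y) = (a : G → K) (x + y) :=
  (h.exists_repr_add a).choose_spec x y

/-- The counit of an order. -/
def counitHom : ↥H →ₐ[R] R :=
  AlgHom.ofLinearMap
    { toFun := fun a => (h.exists_eq_apply_zero hfix a).choose
      map_add' := fun a b => FaithfulSMul.algebraMap_injective R K (by
        rw [map_add, (h.exists_eq_apply_zero hfix a).choose_spec,
          (h.exists_eq_apply_zero hfix b).choose_spec,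
          (h.exists_eq_apply_zero hfix (a + b)).choose_spec]
        rfl)
      map_smul' := fun r a => FaithfulSMul.algebraMap_injective R K (by
        rw [RingHom.id_apply, smul_eq_mul, map_mul, (h.exists_eq_apply_zero hfix a).choose_spec,
          (h.exists_eq_apply_zero hfix (r • a)).choose_spec, ← Algebra.smul_def]
        rfl) }
    (FaithfulSMul.algebraMap_injective R K
      ((h.exists_eq_apply_zero hfix 1).choose_spec.trans (map_one _).symm))
    fun a b => FaithfulSMul.algebraMap_injective R K (by
      rw [map_mul (algebraMap R K)]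
      exact ((h.exists_eq_apply_zero hfix (a * b)).choose_spec).trans (congrArg₂ (· * ·)
        (h.exists_eq_apply_zero hfix a).choose_spec.symm
        (h.exists_eq_apply_zero hfix b).choose_spec.symm))

theorem algebraMap_counitHom (a : ↥H) :
    algebraMap R K (h.counitHom hfix a) = (a : G → K) 0 :=
  (h.exists_eq_apply_zero hfix a).choose_spec

set_option synthInstance.maxHeartbeats 200000 in
-- triple tensor products
set_option maxHeartbeats 1600000 in
theorem coassoc :
    (Algebra.TensorProduct.assoc R R R ↥H ↥H ↥H).toAlgHom.comp
      ((Algebra.TensorProduct.map (h.comulHom hfix) (.id R ↥H)).comp (h.comulHom hfix))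
      = (Algebra.TensorProduct.map (.id R ↥H) (h.comulHom hfix)).comp (h.comulHom hfix) := by
  obtain ⟨ι, _, b, hb, -⟩ := h.exists_basis hfix
  obtain ⟨hli, -⟩ := funMul_injective (incl H) (incl H) b b hb hb
  have hinj := (funMul_injective (incl H) (funMul (incl H) (incl H)) b (b.tensorProduct b) hb hli).2
  have hL : ∀ (u : ↥H ⊗[R] ↥H) (c : ↥H) (x y z : G),
      funMul (incl H) (funMul (incl H) (incl H))
        (Algebra.TensorProduct.assoc R R R ↥H ↥H ↥H (u ⊗ₜ c)) (x, (y, z)) =
      mulAlg H u (x, y) * (c : G → K) z := by
    intro u c x y z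
    induction u using TensorProduct.induction_on with
    | zero => simp
    | tmul p q => exact (mul_assoc _ _ _).symm
    | add p q hp hq =>
      simp only [TensorProduct.add_tmul, map_add, Pi.add_apply, add_mul, hp, hq]
  have key1 : ∀ (t : ↥H ⊗[R] ↥H) (x y z : G), funMul (incl H) (funMul (incl H) (incl H))
      (Algebra.TensorProduct.assoc R R R ↥H ↥H ↥H
        (Algebra.TensorProduct.map (h.comulHom hfix) (.id R ↥H) t)) (x, (y, z)) =
      mulAlg H t (x + y, z) := by
    intro t x y z
    induction t using TensorProduct.induction_on with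
    | zero => simp
    | tmul p q =>
      rw [Algebra.TensorProduct.map_tmul, hL, h.mulAlg_comulHom hfix]
      rfl
    | add p q hp hq => simp only [map_add, Pi.add_apply, hp, hq]
  have key2 : ∀ (t : ↥H ⊗[R] ↥H) (x y z : G), funMul (incl H) (funMul (incl H) (incl H))
      (Algebra.TensorProduct.map (.id R ↥H) (h.comulHom hfix) t) (x, (y, z)) =
      mulAlg H t (x, y + z) := by
    intro t x y z
    induction t using TensorProduct.induction_on with
    | zero => simp
    | tmul p q =>
      rw [Algebra.TensorProduct.map_tmul, funMul_tmul, ← mulAlg_eq]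
      show _ * mulAlg H (h.comulHom hfix q) (y, z) = _
      rw [h.mulAlg_comulHom hfix]
      rfl
    | add p q hp hq => simp only [map_add, Pi.add_apply, hp, hq]
  refine AlgHom.ext fun a => hinj (funext fun ⟨x, y, z⟩ => ?_)
  show funMul (incl H) (funMul (incl H) (incl H))
      (Algebra.TensorProduct.assoc R R R ↥H ↥H ↥H
        (Algebra.TensorProduct.map (h.comulHom hfix) (.id R ↥H) (h.comulHom hfix a))) (x, (y, z)) =
    funMul (incl H) (funMul (incl H) (incl H))
      (Algebra.TensorProduct.map (.id R ↥H) (h.comulHom hfix) (h.comulHom hfix a)) (x, (y, z))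
  rw [key1, key2, h.mulAlg_comulHom hfix, h.mulAlg_comulHom hfix, add_assoc]

theorem rTensor_counit :
    (Algebra.TensorProduct.map (h.counitHom hfix) (.id R ↥H)).comp (h.comulHom hfix)
      = (Algebra.TensorProduct.lid R ↥H).symm := by
  refine AlgHom.ext fun a => (Algebra.TensorProduct.lid R ↥H).injective (Subtype.ext (funext fun x => ?_))
  simp only [AlgHom.comp_apply, AlgEquiv.coe_toAlgHom, AlgEquiv.apply_symm_apply]
  rw [← zero_add x, ← h.mulAlg_comulHom hfix a 0 x, zero_add]
  generalize h.comulHom hfix a = t
  induction t using TensorProduct.induction_on with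
  | zero => simp
  | tmul p q =>
    rw [Algebra.TensorProduct.map_tmul, Algebra.TensorProduct.lid_tmul, mulAlg_tmul,
      ← h.algebraMap_counitHom hfix, ← Algebra.smul_def]
    rfl
  | add p q hp hq => simp only [map_add, AddMemClass.coe_add, Pi.add_apply, hp, hq]

theorem lTensor_counit :
    (Algebra.TensorProduct.map (.id R ↥H) (h.counitHom hfix)).comp (h.comulHom hfix)
      = (Algebra.TensorProduct.rid R R ↥H).symm := by
  refine AlgHom.ext fun a => (Algebra.TensorProduct.rid R R ↥H).injective
    (Subtype.ext (funext fun x => ?_))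
  simp only [AlgHom.comp_apply, AlgEquiv.coe_toAlgHom, AlgEquiv.apply_symm_apply]
  rw [← add_zero x, ← h.mulAlg_comulHom hfix a x 0, add_zero]
  generalize h.comulHom hfix a = t
  induction t using TensorProduct.induction_on with
  | zero => simp
  | tmul p q =>
    rw [Algebra.TensorProduct.map_tmul, Algebra.TensorProduct.rid_tmul, mulAlg_tmul,
      ← h.algebraMap_counitHom hfix, mul_comm, ← Algebra.smul_def]
    rfl
  | add p q hp hq => simp only [map_add, AddMemClass.coe_add, Pi.add_apply, hp, hq]

/-- The bialgebra structure of an order. -/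
@[reducible] def bialgebra : Bialgebra R ↥H :=
  Bialgebra.ofAlgHom (h.comulHom hfix) (h.counitHom hfix) (h.coassoc hfix) (h.rTensor_counit hfix)
    (h.lTensor_counit hfix)

/-- The antipode of an order. -/
def antipodeHom : ↥H →ₐ[R] ↥H :=
  AlgHom.ofLinearMap
    { toFun := fun a => ⟨fun x => (a : G → K) (-x), h.comp_neg_mem hfix a⟩
      map_add' := fun _ _ => rfl
      map_smul' := fun _ _ => rfl } rfl fun _ _ => rfl

/-- The Hopf algebra structure of an order. -/
@[reducible] def hopfAlgebra : HopfAlgebra R ↥H :=
  letI := h.bialgebra hfix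
  HopfAlgebra.ofAlgHom (h.antipodeHom hfix)
    (AlgHom.ext fun a => Subtype.ext (funext fun x => by
      have key : ∀ t : ↥H ⊗[R] ↥H,
          ((Algebra.TensorProduct.lift (h.antipodeHom hfix) (.id R ↥H) (fun _ _ => Commute.all _ _)
            t : ↥H) : G → K) x = mulAlg H t (-x, x) := by
        intro t
        induction t using TensorProduct.induction_on with
        | zero => simp
        | tmul p q => rfl
        | add p q hp hq => simp only [map_add, AddMemClass.coe_add, Pi.add_apply, hp, hq]
      exact (key (h.comulHom hfix a)).trans ((h.mulAlg_comulHom hfix a (-x) x).trans (by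
        rw [neg_add_cancel]; exact (h.algebraMap_counitHom hfix a).symm))))
    (AlgHom.ext fun a => Subtype.ext (funext fun x => by
      have key : ∀ t : ↥H ⊗[R] ↥H,
          ((Algebra.TensorProduct.lift (.id R ↥H) (h.antipodeHom hfix) (fun _ _ => Commute.all _ _)
            t : ↥H) : G → K) x = mulAlg H t (x, -x) := by
        intro t
        induction t using TensorProduct.induction_on with
        | zero => simp
        | tmul p q => rfl
        | add p q hp hq => simp only [map_add, AddMemClass.coe_add, Pi.add_apply, hp, hq]
      exact (key (h.comulHom hfix a)).trans ((h.mulAlg_comulHom hfix a x (-x)).trans (by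
        rw [add_neg_cancel]; exact (h.algebraMap_counitHom hfix a).symm))))

include hfix h in
theorem hasModel : HasModel φ act := by
  classical
  let := h.hopfAlgebra hfix
  have := h.finite
  have := IsOrder.isTorsionFree (H := H)
  obtain ⟨ι, _, b, hb, hbs⟩ := h.exists_basis hfix
  let ev : G → (↥H →ₐ[R] K) := fun x => (Pi.evalAlgHom R (fun _ : G => K) x).comp H.val
  have hev_inj : Function.Injective ev := by
    intro x y hxy
    by_contra hne
    have : ∀ f ∈ Submodule.span K (H : Set (G → K)), f x = f y := fun f hf => by
      induction hf using Submodule.span_induction with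
      | mem f hf => exact DFunLike.congr_fun hxy ⟨f, hf⟩
      | zero => rfl
      | add _ _ _ _ h1 h2 => simp only [Pi.add_apply, h1, h2]
      | smul c _ _ h1 => simp only [Pi.smul_apply, h1]
    have h1 := this (Pi.single x 1) (h.span_eq_top.ge Submodule.mem_top)
    rw [Pi.single_eq_same, Pi.single_eq_of_ne (Ne.symm hne)] at h1
    exact one_ne_zero h1
  have hev_surj : Function.Surjective ev := by
    intro f
    by_contra hf
    push Not at hf
    let F : Option G → (↥H →ₐ[R] K) := fun o => o.elim f ev
    have hFinj : Function.Injective F := by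
      rintro (_ | x) (_ | y) he
      · rfl
      · exact absurd he.symm (hf y)
      · exact absurd he (hf x)
      · exact congrArg some (hev_inj he)
    have hliF : LinearIndependent K (fun o => ((F o : ↥H →ₐ[R] K) : ↥H → K)) :=
      (linearIndependent_monoidHom ↥H K).comp (fun o => (F o).toRingHom.toMonoidHom)
        fun o o' he => hFinj (AlgHom.ext fun a => DFunLike.congr_fun he a)
    have hliι : LinearIndependent K (fun o i => F o (b i)) := by
      rw [linearIndependent_iff'] at hliF ⊢
      intro s c hc o ho
      refine hliF s c (funext fun a => ?_) o ho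
      have ha : a ∈ Submodule.span R (Set.range b) := by rw [b.span_eq]; exact Submodule.mem_top
      simp only [Finset.sum_apply, Pi.smul_apply, smul_eq_mul, Pi.zero_apply]
      induction ha using Submodule.span_induction with
      | mem a ha =>
        obtain ⟨i, rfl⟩ := ha
        have := congrFun hc i
        simpa using this
      | zero => simp
      | add u v _ _ hu hv =>
        simp only [map_add, mul_add, Finset.sum_add_distrib, hu, hv, add_zero]
      | smul r u _ hu =>
        simp only [map_smul, mul_smul_comm, ← Finset.smul_sum, hu, smul_zero]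
    have := Fintype.ofFinite G
    have h1 := hliι.fintype_card_le_finrank
    have h2 := hb.fintype_card_le_finrank
    rw [Fintype.card_option, Module.finrank_pi] at h1
    rw [Module.finrank_pi] at h2
    omega
  let e : WithConv (↥H →ₐ[R] K) ≃ G :=
    (WithConv.equiv _).trans (Equiv.ofBijective ev ⟨hev_inj, hev_surj⟩).symm
  have he : ∀ f : WithConv (↥H →ₐ[R] K), ev (e f) = f.ofConv := fun f =>
    (Equiv.ofBijective ev ⟨hev_inj, hev_surj⟩).apply_symm_apply _
  refine ⟨↥H, inferInstance, h.hopfAlgebra hfix, h.finite, Module.Flat.of_free, ?_, e, ?_, ?_⟩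
  · refine ⟨LinearMap.ext fun a => h.mulAlg_injective hfix (funext fun ⟨x, y⟩ => ?_)⟩
    have key : ∀ t : ↥H ⊗[R] ↥H, mulAlg H (TensorProduct.comm R ↥H ↥H t) (x, y) =
        mulAlg H t (y, x) := by
      intro t
      induction t using TensorProduct.induction_on with
      | zero => simp
      | tmul p q => exact mul_comm _ _
      | add p q hp hq => simp only [map_add, Pi.add_apply, hp, hq]
    exact (key (h.comulHom hfix a)).trans ((h.mulAlg_comulHom hfix a y x).trans (by
      rw [add_comm]; exact (h.mulAlg_comulHom hfix a x y).symm))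
  · intro f g
    apply hev_inj
    rw [he]
    refine AlgHom.ext fun a => ?_
    show Algebra.TensorProduct.lmul' R (Algebra.TensorProduct.map f.ofConv g.ofConv
      (h.comulHom hfix a)) = (a : G → K) (e f + e g)
    rw [← h.mulAlg_comulHom hfix, ← he f, ← he g]
    generalize h.comulHom hfix a = t
    induction t using TensorProduct.induction_on with
    | zero => simp
    | tmul p q => rw [Algebra.TensorProduct.map_tmul, Algebra.TensorProduct.lmul'_apply_tmul]; rfl
    | add p q hp hq => simp only [map_add, Pi.add_apply, hp, hq]
  · intro σ f g hfg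
    apply hev_inj
    rw [he]
    refine AlgHom.ext fun a => (hfg a).trans ?_
    show φ σ (f.ofConv a) = (a : G → K) (act σ (e f))
    rw [h.equivariant _ a.2, ← he f]
    rfl

end Hopf

end IsOrder

end FLTAgent.FlatHopf

end
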